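import Fermat.Agent.LT.H3.Coord
import Mathlib.MeasureTheory.Function.Jacobian
import Mathlib.MeasureTheory.Measure.Lebesgue.Complex
import Mathlib.Geometry.Euclidean.Inversion.Calculus
import Mathlib.Analysis.InnerProductSpace.ProdL2
import Mathlib.Analysis.InnerProductSpace.Projection.FiniteDimensional
import Mathlib.Analysis.Complex.OperatorNorm
import Mathlib.RingTheory.Complex
import Mathlib.LinearAlgebra.Complex.FiniteDimensional
import Mathlib.MeasureTheory.Group.Action
import Mathlib.Analysis.InnerProductSpace.PiL2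

/-!
# The invariant measure on hyperbolic three-space

In coordinates `dvol = d²z dt / t³`. It is invariant under all of `GL₂(ℂ)`, σ-finite, finite on
compact sets and positive on nonempty open sets.
-/

set_option autoImplicit false

noncomputable section

open MeasureTheory Matrix Set
open scoped ENNReal ComplexConjugate

namespace Fermat.Agent.LT.H3

instance instMeasurableSpace : MeasurableSpace H3 := borel H3

instance instBorelSpace : BorelSpace H3 := ⟨rfl⟩

instance instT2Space : T2Space H3 := coordHomeo.symm.t2Space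

instance instSecondCountable : SecondCountableTopology H3 := coordHomeo.secondCountableTopology

instance instContinuousConstSMul : ContinuousConstSMul (GL (Fin 2) ℂ) H3 :=
  ⟨continuous_smul_point⟩

/-- The upper half space. -/
def upper : Set (ℂ × ℝ) := {p | 0 < p.2}

theorem isOpen_upper : IsOpen upper := isOpen_lt continuous_const continuous_snd

/-- The upper half space is measurable. -/
theorem measurableSet_upper : MeasurableSet upper := isOpen_upper.measurableSet

theorem continuousOn_pt : ContinuousOn (fun p : ℂ × ℝ => pt p.1 p.2) upper :=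
  continuousOn_iff_continuous_domRestrict.mpr coordHomeo.continuous_invFun

/-- The coordinate parametrisation is measurable. -/
theorem measurable_pt : Measurable fun p : ℂ × ℝ => pt p.1 p.2 := by
  classical
  have h : (fun p : ℂ × ℝ => pt p.1 p.2) = upper.piecewise (fun p => pt p.1 p.2) fun _ => origin := by
    funext p
    by_cases hp : p ∈ upper
    · rw [piecewise_eq_of_mem _ _ _ hp]
    · have hp' : ¬ 0 < p.2 := hp
      rw [piecewise_eq_of_notMem _ _ _ hp, pt, dif_neg hp']
  rw [h]
  exact continuousOn_pt.measurable_piecewise continuousOn_const measurableSet_upper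

/-- The density `t⁻³`. -/
def density (p : ℂ × ℝ) : ℝ≥0∞ := ENNReal.ofReal ((p.2 ^ 3)⁻¹)

/-- The density `t⁻³` is measurable. -/
theorem measurable_density : Measurable density :=
  ((measurable_snd.pow_const 3).inv).ennreal_ofReal

/-- The invariant measure in coordinates. -/
def coordVol : Measure (ℂ × ℝ) := (volume.restrict upper).withDensity density

/-- The invariant measure on `H3`. -/
def vol : Measure H3 := coordVol.map fun p => pt p.1 p.2

/-- Integration against `vol` in coordinates. -/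
theorem lintegral_vol {f : H3 → ℝ≥0∞} (hf : Measurable f) :
    ∫⁻ P, f P ∂vol = ∫⁻ p in upper, density p * f (pt p.1 p.2) := by
  rw [vol, lintegral_map hf measurable_pt, coordVol,
    lintegral_withDensity_eq_lintegral_mul _ measurable_density
      (g := fun p : ℂ × ℝ => f (pt p.1 p.2)) (hf.comp measurable_pt)]
  rfl

/-- Integrals over `H³` in coordinates. -/
theorem integral_vol {E : Type*} [NormedAddCommGroup E] [NormedSpace ℝ E] {f : H3 → E}
    (hf : StronglyMeasurable f) :
    ∫ P, f P ∂vol = ∫ p in upper, (p.2 ^ 3)⁻¹ • f (pt p.1 p.2) := by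
  rw [vol, integral_map measurable_pt.aemeasurable hf.aestronglyMeasurable, coordVol]
  have hlt : ∀ᵐ p ∂(volume : Measure (ℂ × ℝ)).restrict upper, density p < ∞ :=
    Filter.Eventually.of_forall fun _ => ENNReal.ofReal_lt_top
  rw [integral_withDensity_eq_integral_toReal_smul measurable_density hlt]
  refine setIntegral_congr_fun measurableSet_upper fun p hp => ?_
  have : (0 : ℝ) < p.2 := hp
  simp only [density]
  rw [ENNReal.toReal_ofReal (by positivity)]

/-- Lebesgue measure on `ℂ × ℝ` is an additive Haar measure. -/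
theorem isAddHaar_volume_prod : (volume : Measure (ℂ × ℝ)).IsAddHaarMeasure :=
  Measure.prod.instIsAddHaarMeasure (volume : Measure ℂ) (volume : Measure ℝ)

/-- A transformation of the upper half space preserving `density · volume` gives an invariance. -/
theorem map_smul_vol_of_transform (g : GL (Fin 2) ℂ) (T : ℂ × ℝ → ℂ × ℝ)
    (T' : ℂ × ℝ → (ℂ × ℝ) →L[ℝ] (ℂ × ℝ))
    (hT : ∀ p ∈ upper, HasFDerivAt T (T' p) p) (himage : T '' upper = upper)
    (hinj : InjOn T upper) (heq : ∀ p ∈ upper, g • pt p.1 p.2 = pt (T p).1 (T p).2)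
    (hjac : ∀ p ∈ upper, ENNReal.ofReal |(T' p).det| * density (T p) = density p) :
    vol.map (fun P => g • P) = vol := by
  have := isAddHaar_volume_prod
  refine Measure.ext_of_lintegral _ fun f hf => ?_
  rw [lintegral_map hf (continuous_smul_point g).measurable,
    lintegral_vol (f := fun P => f (g • P)) (hf.comp (continuous_smul_point g).measurable),
    lintegral_vol hf]
  symm
  calc ∫⁻ p in upper, density p * f (pt p.1 p.2)
      = ∫⁻ p in T '' upper, density p * f (pt p.1 p.2) := by rw [himage]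
    _ = ∫⁻ p in upper, ENNReal.ofReal |(T' p).det| * (density (T p) * f (pt (T p).1 (T p).2)) :=
        lintegral_image_eq_lintegral_abs_det_fderiv_mul _ measurableSet_upper
          (fun p hp => (hT p hp).hasFDerivWithinAt) hinj _
    _ = ∫⁻ p in upper, density p * f (g • pt p.1 p.2) := by
        refine setLIntegral_congr_fun measurableSet_upper fun p hp => ?_
        simp only [← mul_assoc, hjac p hp, heq p hp]

theorem map_affine_smul_vol (a b : ℂ) (ha : a ≠ 0) :
    vol.map (fun P => affine a b ha • P) = vol := by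
  have hna : 0 < ‖a‖ := norm_pos_iff.mpr ha
  let L : (ℂ × ℝ) →L[ℝ] (ℂ × ℝ) :=
    (ContinuousLinearMap.mul ℝ ℂ a).prodMap (ContinuousLinearMap.mul ℝ ℝ ‖a‖)
  have hdet : L.det = Complex.normSq a * ‖a‖ := by
    show LinearMap.det ((LinearMap.mul ℝ ℂ a).prodMap (LinearMap.mul ℝ ℝ ‖a‖)) = _
    rw [LinearMap.det_prodMap]
    congr 1
    · have : Algebra.norm ℝ a = Complex.normSq a := by
        rw [Algebra.norm_complex_eq]; rfl
      rw [← this, Algebra.norm_apply]
      rfl
    · rw [LinearMap.det_ring]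
      simp
  refine map_smul_vol_of_transform _ (fun p => (a * p.1 + b, ‖a‖ * p.2)) (fun _ => L) ?_ ?_ ?_ ?_ ?_
  · intro p _
    have : (fun p : ℂ × ℝ => (a * p.1 + b, ‖a‖ * p.2)) = fun p => L p + (b, 0) := by
      funext p; simp [L, Prod.ext_iff]
    rw [this]
    exact L.hasFDerivAt.add_const _
  · ext q
    constructor
    · rintro ⟨p, hp, rfl⟩; exact mul_pos hna hp
    · intro hq
      refine ⟨((q.1 - b) / a, q.2 / ‖a‖), div_pos hq hna, ?_⟩
      have := hna.ne'
      ext <;> field_simp
      ring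
  · rintro ⟨x, s⟩ _ ⟨y, u⟩ _ h
    simp only [Prod.mk.injEq, add_left_inj, mul_eq_mul_left_iff, ha, hna.ne', or_false] at h
    exact Prod.ext h.1 h.2
  · intro p hp; exact affine_smul a b p.1 ha hp
  · intro p hp
    have hp' : (0 : ℝ) < p.2 := hp
    simp only [density]
    rw [← ENNReal.ofReal_mul (abs_nonneg _), hdet, Complex.normSq_eq_norm_sq,
      abs_of_pos (by positivity)]
    congr 1
    field_simp

/-- The inversion in coordinates. -/
def invMap (p : ℂ × ℝ) : ℂ × ℝ :=
  (-conj p.1 / ((Complex.normSq p.1 + p.2 ^ 2 : ℝ) : ℂ), p.2 / (Complex.normSq p.1 + p.2 ^ 2))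

theorem invMap_mem {p : ℂ × ℝ} (hp : p ∈ upper) : invMap p ∈ upper :=
  div_pos hp (add_pos_of_nonneg_of_pos (Complex.normSq_nonneg _) (pow_pos hp 2))

theorem invMap_invMap {p : ℂ × ℝ} (hp : p ∈ upper) : invMap (invMap p) = p := by
  set D := Complex.normSq p.1 + p.2 ^ 2 with hD
  have hDpos : 0 < D := add_pos_of_nonneg_of_pos (Complex.normSq_nonneg _) (pow_pos hp 2)
  have h1 : Complex.normSq (invMap p).1 + (invMap p).2 ^ 2 = D⁻¹ := by
    simp only [invMap, Complex.normSq_div, Complex.normSq_neg, Complex.normSq_conj,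
      Complex.normSq_ofReal, ← hD]
    field_simp
    rw [hD]
  show (_, _) = p
  rw [h1]
  have hDc : (D : ℂ) ≠ 0 := Complex.ofReal_ne_zero.mpr hDpos.ne'
  refine Prod.ext ?_ ?_
  · simp only [invMap, map_div₀, map_neg, Complex.conj_conj, Complex.conj_ofReal, ← hD,
      Complex.ofReal_inv]
    field_simp
  · simp only [invMap, ← hD]
    field_simp

/-- The derivative of the inversion, with its determinant. -/
theorem exists_hasFDerivAt_invMap {p : ℂ × ℝ} (hp : p ∈ upper) :
    ∃ A : (ℂ × ℝ) →L[ℝ] (ℂ × ℝ), HasFDerivAt invMap A p ∧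
      |A.det| = ((Complex.normSq p.1 + p.2 ^ 2) ^ 3)⁻¹ := by
  set e : (ℂ × ℝ) ≃L[ℝ] WithLp 2 (ℂ × ℝ) := (WithLp.prodContinuousLinearEquiv 2 ℝ ℂ ℝ).symm
  set R : (ℂ × ℝ) →L[ℝ] (ℂ × ℝ) :=
    (-(Complex.conjCLE : ℂ →L[ℝ] ℂ)).prodMap (ContinuousLinearMap.id ℝ ℝ)
  set x := e p with hx
  set D := Complex.normSq p.1 + p.2 ^ 2 with hD
  have hDpos : 0 < D := add_pos_of_nonneg_of_pos (Complex.normSq_nonneg _) (pow_pos hp 2)
  have hnorm : ∀ q : ℂ × ℝ, ‖e q‖ ^ 2 = Complex.normSq q.1 + q.2 ^ 2 := fun q => by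
    rw [WithLp.prod_norm_sq_eq_of_L2]
    simp [e, Complex.normSq_eq_norm_sq]
  have hx0 : x ≠ 0 := by
    intro h
    have := hnorm p
    rw [← hx, h, norm_zero] at this
    simp at this
    linarith
  have heqf : invMap = fun q => R (e.symm (EuclideanGeometry.inversion 0 1 (e q))) := by
    funext q
    simp only [EuclideanGeometry.inversion, vsub_eq_sub, sub_zero, vadd_eq_add, add_zero,
      dist_zero_right, div_pow, one_pow, map_smul, e.symm_apply_apply, hnorm]
    refine Prod.ext ?_ ?_
    · simp [invMap, R, div_eq_inv_mul]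
    · simp [invMap, R, div_eq_inv_mul]
  set B : WithLp 2 (ℂ × ℝ) →L[ℝ] WithLp 2 (ℂ × ℝ) :=
    (1 / dist x 0) ^ 2 • ((ℝ ∙ (x - 0))ᗮ.reflection : WithLp 2 (ℂ × ℝ) →L[ℝ] WithLp 2 (ℂ × ℝ))
  refine ⟨R.comp ((e.symm : WithLp 2 (ℂ × ℝ) →L[ℝ] (ℂ × ℝ)).comp
    (B.comp (e : (ℂ × ℝ) →L[ℝ] WithLp 2 (ℂ × ℝ)))), ?_, ?_⟩
  · rw [heqf]
    exact R.hasFDerivAt.comp p (e.symm.hasFDerivAt.comp p
      ((EuclideanGeometry.hasFDerivAt_inversion hx0).comp p e.hasFDerivAt))
  · have hR : |LinearMap.det (R : (ℂ × ℝ) →ₗ[ℝ] (ℂ × ℝ))| = 1 := by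
      show |LinearMap.det
        ((-(Complex.conjLIE.toLinearEquiv : ℂ →ₗ[ℝ] ℂ)).prodMap (LinearMap.id : ℝ →ₗ[ℝ] ℝ))| = 1
      rw [LinearMap.det_prodMap, LinearMap.det_id, mul_one,
        ← neg_one_smul ℝ (Complex.conjLIE.toLinearEquiv : ℂ →ₗ[ℝ] ℂ), LinearMap.det_smul,
        Complex.det_conjLIE, Complex.finrank_real_complex]
      norm_num
    have hB : |LinearMap.det (B : WithLp 2 (ℂ × ℝ) →ₗ[ℝ] WithLp 2 (ℂ × ℝ))| = (D ^ 3)⁻¹ := by
      show |LinearMap.det (((1 / dist x 0) ^ 2) •
        ((ℝ ∙ (x - 0))ᗮ.reflection.toLinearMap : WithLp 2 (ℂ × ℝ) →ₗ[ℝ] WithLp 2 (ℂ × ℝ)))| = _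
      rw [LinearMap.det_smul, Submodule.det_reflection, Submodule.orthogonal_orthogonal,
        finrank_span_singleton (by simpa using hx0), pow_one,
        (WithLp.linearEquiv 2 ℝ (ℂ × ℝ)).finrank_eq, Module.finrank_prod,
        Complex.finrank_real_complex, Module.finrank_self, dist_zero_right, div_pow, one_pow,
        hx, hnorm, ← hD, mul_neg, mul_one, abs_neg, one_div, inv_pow, abs_of_pos (by positivity)]
    show |LinearMap.det ((R : (ℂ × ℝ) →ₗ[ℝ] (ℂ × ℝ)).comp
      ((e.symm.toLinearEquiv : WithLp 2 (ℂ × ℝ) →ₗ[ℝ] (ℂ × ℝ)).comp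
        ((B : WithLp 2 (ℂ × ℝ) →ₗ[ℝ] WithLp 2 (ℂ × ℝ)).comp
          (e.toLinearEquiv : (ℂ × ℝ) →ₗ[ℝ] WithLp 2 (ℂ × ℝ)))))| = _
    rw [LinearMap.det_comp, abs_mul, hR, one_mul, ← hB]
    congr 1
    conv_rhs => rw [← LinearMap.det_conj (B : WithLp 2 (ℂ × ℝ) →ₗ[ℝ] WithLp 2 (ℂ × ℝ))
      e.symm.toLinearEquiv]
    congr 1

theorem map_wInv_smul_vol : vol.map (fun P => wInv • P) = vol := by
  classical
  let T' : ℂ × ℝ → (ℂ × ℝ) →L[ℝ] (ℂ × ℝ) := fun p =>
    if h : p ∈ upper then (exists_hasFDerivAt_invMap h).choose else 0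
  refine map_smul_vol_of_transform _ invMap T' ?_ ?_ ?_ ?_ ?_
  · intro p hp
    simp only [T', dif_pos hp]
    exact (exists_hasFDerivAt_invMap hp).choose_spec.1
  · refine Subset.antisymm ?_ fun p hp => ⟨invMap p, invMap_mem hp, invMap_invMap hp⟩
    rintro _ ⟨p, hp, rfl⟩
    exact invMap_mem hp
  · intro p hp q hq h
    rw [← invMap_invMap hp, h, invMap_invMap hq]
  · intro p hp; exact wInv_smul p.1 hp
  · intro p hp
    have hp' : (0 : ℝ) < p.2 := hp
    have hD : 0 < Complex.normSq p.1 + p.2 ^ 2 :=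
      add_pos_of_nonneg_of_pos (Complex.normSq_nonneg _) (pow_pos hp 2)
    simp only [T', dif_pos hp, density]
    rw [← ENNReal.ofReal_mul (abs_nonneg _), (exists_hasFDerivAt_invMap hp).choose_spec.2]
    congr 1
    simp only [invMap]
    field_simp

/-- Scalar matrices act trivially. -/
theorem scalar_smul (c : ℂ) (hc : c ≠ 0) (g g' : GL (Fin 2) ℂ)
    (h : (g' : Matrix (Fin 2) (Fin 2) ℂ) = c • (g : Matrix (Fin 2) (Fin 2) ℂ)) (P : H3) :
    g' • P = g • P := by
  refine H3.ext ?_
  rw [smul_mat, smul_mat, h]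
  simp only [Matrix.det_smul, Matrix.conjTranspose_smul, Matrix.smul_mul, Matrix.mul_smul,
    smul_smul, Fintype.card_fin, norm_mul, norm_pow]
  congr 1
  have hn : (‖c‖ : ℂ) ≠ 0 := Complex.ofReal_ne_zero.mpr (norm_ne_zero_iff.mpr hc)
  have hd := Complex.ofReal_ne_zero.mpr (norm_det_pos g).ne'
  push_cast
  field_simp
  rw [Complex.star_def, Complex.conj_mul']

/-- Bruhat: invariance under the generators gives invariance under everything. -/
theorem smul_induction {p : (H3 → H3) → Prop}
    (hid : ∀ f g, p f → p g → p (f ∘ g))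
    (haff : ∀ a b (ha : a ≠ 0), p fun P => affine a b ha • P) (hw : p fun P => wInv • P)
    (g : GL (Fin 2) ℂ) : p fun P => g • P := by
  obtain ⟨a, b, c, d, hM⟩ : ∃ a b c d : ℂ, (g : Matrix (Fin 2) (Fin 2) ℂ) = !![a, b; c, d] :=
    ⟨_, _, _, _, Matrix.eta_fin_two _⟩
  have hdet : a * d - b * c ≠ 0 := by
    have := (norm_pos_iff.mp (norm_det_pos g))
    rwa [hM, Matrix.det_fin_two_of] at this
  by_cases hc : c = 0
  · subst hc
    simp only [mul_zero, sub_zero, ne_eq, mul_eq_zero, not_or] at hdet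
    have h : ∀ P : H3, g • P = affine (a / d) (b / d) (div_ne_zero hdet.1 hdet.2) • P :=
      scalar_smul d hdet.2 _ _ (by
        rw [hM]; ext i j; fin_cases i <;> fin_cases j <;> simp [affine] <;> field_simp [hdet.2])
    simp only [h]
    exact haff _ _ _
  · have hA : (a * d - b * c) / c ^ 2 ≠ 0 := div_ne_zero hdet (pow_ne_zero 2 hc)
    have h : ∀ P : H3, g • P =
        (affine ((a * d - b * c) / c ^ 2) (a / c) hA * wInv * affine 1 (d / c) one_ne_zero) • P :=
      scalar_smul c hc _ _ (by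
        rw [hM]; ext i j
        fin_cases i <;> fin_cases j <;> simp [affine, wInv, Units.val_mul] <;> first | (field_simp; done) | (field_simp; ring))
    simp only [h, mul_smul]
    exact hid (fun P => affine ((a * d - b * c) / c ^ 2) (a / c) hA • P)
      (fun P => wInv • affine 1 (d / c) one_ne_zero • P) (haff _ _ _) (hid _ _ hw (haff _ _ _))

/-- `vol` is invariant under `GL₂(ℂ)`. -/
theorem map_smul_vol (g : GL (Fin 2) ℂ) : vol.map (fun P => g • P) = vol := by
  have := smul_induction (p := fun f => Measurable f ∧ vol.map f = vol)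
    (fun f g hf hg => ⟨hf.1.comp hg.1, by rw [← Measure.map_map hf.1 hg.1, hg.2, hf.2]⟩)
    (fun a b ha => ⟨(continuous_smul_point _).measurable, map_affine_smul_vol a b ha⟩)
    ⟨(continuous_smul_point _).measurable, map_wInv_smul_vol⟩ g
  exact this.2

instance instSMulInvariant : SMulInvariantMeasure (GL (Fin 2) ℂ) H3 vol := by
  refine ⟨fun g s hs => ?_⟩
  rw [← Measure.map_apply (continuous_smul_point g).measurable hs, map_smul_vol g]

/-- The volume is invariant under `GL(2, ℂ)`. -/
theorem measurePreserving_smul (g : GL (Fin 2) ℂ) :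
    MeasurePreserving (fun P : H3 => g • P) vol vol :=
  ⟨(continuous_smul_point g).measurable, map_smul_vol g⟩

/-- `GL(2, ℂ)` acts by measurable embeddings. -/
theorem measurableEmbedding_smul (g : GL (Fin 2) ℂ) : MeasurableEmbedding fun P : H3 => g • P :=
  (Homeomorph.smul g).measurableEmbedding

/-- Integrals against `vol` are invariant under `GL₂(ℂ)`. -/
theorem integral_smul_vol {E : Type*} [NormedAddCommGroup E] [NormedSpace ℝ E] (g : GL (Fin 2) ℂ)
    (f : H3 → E) : ∫ P, f (g • P) ∂vol = ∫ P, f P ∂vol :=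
  (measurePreserving_smul g).integral_comp (measurableEmbedding_smul g) f

instance instLocallyCompact : LocallyCompactSpace H3 :=
  haveI : LocallyCompactSpace {p : ℂ × ℝ // 0 < p.2} := isOpen_upper.locallyCompactSpace
  coordHomeo.isClosedEmbedding.locallyCompactSpace

instance instIsFiniteOnCompacts : IsFiniteMeasureOnCompacts vol := by
  refine ⟨fun K hK => ?_⟩
  set S : Set (ℂ × ℝ) := (fun P => (zc P, tc P)) '' K with hS
  have hSc : IsCompact S := hK.image (continuous_zc.prodMk continuous_tc)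
  have hSU : S ⊆ upper := by rintro _ ⟨P, -, rfl⟩; exact tc_pos P
  rw [← lintegral_indicator_one hK.measurableSet,
    lintegral_vol (measurable_one.indicator hK.measurableSet)]
  have hbd : ContinuousOn (fun p : ℂ × ℝ => (p.2 ^ 3)⁻¹) S :=
    (continuous_snd.pow 3).continuousOn.inv₀ fun p hp => by
      have : (0 : ℝ) < p.2 := hSU hp
      exact (pow_pos this 3).ne'
  obtain ⟨C, hC⟩ := hSc.exists_bound_of_continuousOn hbd
  calc ∫⁻ p in upper, density p * K.indicator 1 (pt p.1 p.2)
      ≤ ∫⁻ p, S.indicator (fun _ => ENNReal.ofReal C) p := by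
        refine (lintegral_mono_ae ?_).trans (setLIntegral_le_lintegral upper _)
        refine (ae_restrict_mem measurableSet_upper).mono fun p hp => ?_
        by_cases hpK : pt p.1 p.2 ∈ K
        · have hpS : p ∈ S := ⟨_, hpK, Prod.ext (zc_pt _ hp) (tc_pt _ hp)⟩
          rw [indicator_of_mem hpK, indicator_of_mem hpS, Pi.one_apply, mul_one]
          exact ENNReal.ofReal_le_ofReal ((le_abs_self _).trans (hC p hpS))
        · simp [indicator_of_notMem hpK]
    _ < ∞ := by
        rw [lintegral_indicator_const hSc.measurableSet]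
        exact ENNReal.mul_lt_top ENNReal.ofReal_lt_top hSc.measure_lt_top

instance instSigmaFinite : SigmaFinite vol :=
  haveI : IsLocallyFiniteMeasure vol := isLocallyFiniteMeasure_of_isFiniteMeasureOnCompacts
  inferInstance

instance instOpenPos : vol.IsOpenPosMeasure := by
  refine ⟨fun U hU hne h0 => ?_⟩
  obtain ⟨P, hP⟩ := hne
  set O : Set (ℂ × ℝ) := upper ∩ (fun p => pt p.1 p.2) ⁻¹' U with hO
  have hOo : IsOpen O := continuousOn_pt.isOpen_inter_preimage isOpen_upper hU
  have hOne : O.Nonempty := ⟨(zc P, tc P), tc_pos P, by simpa [pt_coord] using hP⟩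
  rw [vol, Measure.map_apply measurable_pt hU.measurableSet, coordVol,
    withDensity_apply _ (measurable_pt hU.measurableSet),
    Measure.restrict_restrict (measurable_pt hU.measurableSet),
    setLIntegral_eq_zero_iff
      ((measurable_pt hU.measurableSet).inter measurableSet_upper) measurable_density] at h0
  refine (hOo.measure_pos volume hOne).ne' (measure_mono_null ?_ (ae_iff.mp h0))
  rintro p ⟨hp, hpU⟩ hcontra
  have hp' : (0 : ℝ) < p.2 := hp
  exact (ENNReal.ofReal_pos.mpr (inv_pos.mpr (pow_pos hp' 3))).ne' (hcontra ⟨hpU, hp⟩)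

end Fermat.Agent.LT.H3
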