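import Fermat.Agent.LT.H3.Measure
import Mathlib.Analysis.Matrix.Spectrum
import Mathlib.Topology.MetricSpace.Bounded
import Mathlib.MeasureTheory.Integral.Prod
import Mathlib.MeasureTheory.Integral.Bochner.Set

/-!
# Radial kernels on hyperbolic three-space

`kop k φ P = ∫ Q, k (cdist P Q) • φ Q`, the spherical transform `sph` at the parameter zero,
`IsSphEigen` (eigenfunctions with the eigencharacter of `tc`), the convolution of two profiles and
its commutativity.
-/

set_option autoImplicit false

noncomputable section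

open MeasureTheory Matrix Set Filter Topology
open scoped ComplexConjugate ComplexOrder

namespace Fermat.Agent.LT.H3

/-! ### Balls -/

/-- `cdist P` is continuous. -/
theorem continuous_cdist_left (P : H3) : Continuous fun Q => cdist P Q := by
  have h : Continuous fun Q : H3 => ((P, Q) : H3 × H3) := continuous_const.prodMk continuous_id
  have h' := Continuous.comp continuous_cdist h
  simpa only [Function.comp_def] using h'

/-- Balls are closed. -/
theorem isClosed_le_cdist (P : H3) (R : ℝ) : IsClosed {Q | cdist P Q ≤ R} :=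
  isClosed_le (continuous_cdist_left P) continuous_const

/-- Neighbourhoods of bounded radius of a compact set are relatively compact. -/
theorem exists_compact_cdist_le {N : Set H3} (hN : IsCompact N) (R : ℝ) :
    ∃ C : Set H3, IsCompact C ∧ ∀ P ∈ N, ∀ Q, cdist P Q ≤ R → Q ∈ C := by
  rcases N.eq_empty_or_nonempty with rfl | hne
  · exact ⟨∅, isCompact_empty, fun P hP => absurd hP (notMem_empty P)⟩
  obtain ⟨Pm, -, hm⟩ := hN.exists_isMinOn hne continuous_tc.continuousOn
  obtain ⟨PM, -, hM⟩ := hN.exists_isMaxOn hne continuous_tc.continuousOn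
  obtain ⟨Z, hZ⟩ := hN.exists_bound_of_continuousOn continuous_zc.continuousOn
  set R' := max R 1
  have hR' : 1 ≤ R' := le_max_right _ _
  set T0 := tc Pm
  set T1 := tc PM
  have hT0 : 0 < T0 := tc_pos _
  have hT1 : 0 < T1 := tc_pos _
  set S : Set (ℂ × ℝ) :=
    Metric.closedBall 0 (Z + 2 * R' * T1) ×ˢ Icc (T0 / (2 * R')) (2 * R' * T1)
  have hSU : S ⊆ upper := fun p hp => lt_of_lt_of_le (by positivity) hp.2.1
  refine ⟨(fun p : ℂ × ℝ => pt p.1 p.2) '' S, ((isCompact_closedBall _ _).prod
    isCompact_Icc).image_of_continuousOn (continuousOn_pt.mono hSU), fun P hP Q hQ => ?_⟩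
  refine ⟨(zc Q, tc Q), ?_, pt_coord Q⟩
  have hp := tc_pos P
  have hq := tc_pos Q
  have hPm : T0 ≤ tc P := hm hP
  have hPM : tc P ≤ T1 := hM hP
  have h := hQ.trans (le_max_left R 1)
  rw [cdist_eq, div_le_iff₀ (by positivity)] at h
  have hn := Complex.normSq_nonneg (zc P - zc Q)
  have h1 : tc Q ≤ 2 * R' * tc P := by nlinarith
  have h2 : tc P ≤ 2 * R' * tc Q := by nlinarith
  have h3 : tc Q ≤ 2 * R' * T1 := h1.trans (by gcongr)
  refine ⟨?_, ?_, h3⟩
  · rw [Metric.mem_closedBall, dist_zero_right]
    have hd : ‖zc P - zc Q‖ ≤ 2 * R' * T1 := by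
      refine (pow_le_pow_iff_left₀ (norm_nonneg _) (by positivity) two_ne_zero).mp ?_
      rw [← Complex.normSq_eq_norm_sq]
      have : tc P * tc Q ≤ T1 * (2 * R' * T1) := by gcongr
      nlinarith
    calc ‖zc Q‖ = ‖zc P - (zc P - zc Q)‖ := by rw [sub_sub_cancel]
      _ ≤ ‖zc P‖ + ‖zc P - zc Q‖ := norm_sub_le _ _
      _ ≤ Z + 2 * R' * T1 := add_le_add (hZ P hP) hd
  · rw [div_le_iff₀ (by positivity)]
    nlinarith

/-- Closed balls are compact. -/
theorem isCompact_cdist_le (P : H3) (R : ℝ) : IsCompact {Q | cdist P Q ≤ R} := by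
  obtain ⟨C, hC, h⟩ := exists_compact_cdist_le (isCompact_singleton (x := P)) R
  exact hC.of_isClosed_subset (isClosed_le_cdist P R) fun Q hQ => h P rfl Q hQ

/-! ### Profiles -/

/-- A compactly supported profile vanishes beyond some radius. -/
theorem exists_bound_profile {k : ℝ → ℝ} (hs : HasCompactSupport k) :
    ∃ R, ∀ u, R < u → k u = 0 := by
  obtain ⟨R, hR⟩ := hs.bddAbove
  exact ⟨R, fun u hu => image_eq_zero_of_notMem_tsupport fun h => hu.not_ge (hR h)⟩

/-- A continuous profile gives a continuous kernel. -/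
theorem continuous_profile {k : ℝ → ℝ} (hk : Continuous k) (P : H3) :
    Continuous fun Q => k (cdist P Q) :=
  hk.comp (continuous_cdist_left P)

/-- A compactly supported profile gives a compactly supported kernel. -/
theorem hasCompactSupport_profile {k : ℝ → ℝ} (hs : HasCompactSupport k) (P : H3) :
    HasCompactSupport fun Q => k (cdist P Q) := by
  obtain ⟨R, hR⟩ := exists_bound_profile hs
  exact HasCompactSupport.intro (isCompact_cdist_le P R) fun Q hQ => hR _ (not_le.mp hQ)

variable {E : Type*} [NormedAddCommGroup E] [NormedSpace ℝ E]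

/-- The kernel of a profile times a continuous function is integrable. -/
theorem integrable_profile_smul {k : ℝ → ℝ} (hk : Continuous k) (hs : HasCompactSupport k)
    (P : H3) {φ : H3 → E} (hφ : Continuous φ) :
    Integrable (fun Q => k (cdist P Q) • φ Q) vol :=
  ((continuous_profile hk P).smul hφ).integrable_of_hasCompactSupport
    (hasCompactSupport_profile hs P).smul_right

/-- The operator attached to a radial profile. -/
def kop (k : ℝ → ℝ) (φ : H3 → E) (P : H3) : E := ∫ Q, k (cdist P Q) • φ Q ∂vol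

theorem continuous_kop {k : ℝ → ℝ} (hk : Continuous k) (hs : HasCompactSupport k) {φ : H3 → E}
    (hφ : Continuous φ) : Continuous (kop k φ) := by
  refine continuous_iff_continuousAt.mpr fun P => ?_
  obtain ⟨N, hN, hPN⟩ := exists_compact_mem_nhds P
  obtain ⟨R, hR⟩ := exists_bound_profile hs
  obtain ⟨C, hC, hCN⟩ := exists_compact_cdist_le hN R
  refine ContinuousOn.continuousAt ?_ hPN
  refine continuousOn_integral_of_compact_support hC ?_ fun p x hp hx => ?_
  · exact (Continuous.smul (hk.comp continuous_cdist) (hφ.comp continuous_snd)).continuousOn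
  · rw [hR _ (not_le.mp fun h => hx (hCN p hp x h)), zero_smul]

theorem kop_comp_smul (k : ℝ → ℝ) (φ : H3 → E) (g : GL (Fin 2) ℂ) (P : H3) :
    kop k (fun Q => φ (g • Q)) P = kop k φ (g • P) := by
  unfold kop
  rw [← integral_smul_vol g fun Q => k (cdist (g • P) Q) • φ Q]
  simp only [cdist_smul]

/-- The spherical transform of a profile at the parameter zero. -/
def sph (k : ℝ → ℝ) : ℝ := ∫ Q, k (cdist origin Q) * tc Q ∂vol

theorem tc_affine_smul (a b : ℂ) (ha : a ≠ 0) (P : H3) :
    tc (affine a b ha • P) = ‖a‖ * tc P := by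
  conv_lhs => rw [← pt_coord P, affine_smul a b _ ha (tc_pos P)]
  rw [tc_pt _ (mul_pos (norm_pos_iff.mpr ha) (tc_pos P))]

theorem kop_tc (k : ℝ → ℝ) (P : H3) : kop k tc P = sph k * tc P := by
  have hne : (tc P : ℂ) ≠ 0 := Complex.ofReal_ne_zero.mpr (tc_pos P).ne'
  have hg : affine (tc P : ℂ) (zc P) hne • origin = P := by
    conv_rhs => rw [← pt_coord P, pt, dif_pos (tc_pos P)]
  conv_lhs => rw [← hg, ← kop_comp_smul]
  simp only [kop, sph, smul_eq_mul, tc_affine_smul, Complex.norm_real,
    Real.norm_of_nonneg (tc_pos P).le]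
  rw [← integral_mul_const]
  congr 1
  funext Q
  ring

/-- The spherical transform of a nonnegative nonzero profile is positive. -/
theorem sph_pos {k : ℝ → ℝ} (hk : Continuous k) (hs : HasCompactSupport k) (h0 : ∀ u, 0 ≤ k u)
    (h1 : k 1 ≠ 0) : 0 < sph k := by
  refine Continuous.integral_pos_of_hasCompactSupport_nonneg_nonzero
    ((continuous_profile hk origin).mul continuous_tc)
    (hasCompactSupport_profile hs origin).mul_right
    (fun Q => mul_nonneg (h0 _) (tc_pos Q).le) (x := origin) ?_
  simpa using mul_ne_zero h1 (tc_pos origin).ne'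

/-- Continuous eigenfunctions of all radial operators with the eigencharacter of `tc`. -/
structure IsSphEigen (φ : H3 → ℂ) : Prop where
  continuous : Continuous φ
  kop_eq : ∀ k : ℝ → ℝ, Continuous k → HasCompactSupport k → ∀ P, kop k φ P = sph k • φ P

theorem isSphEigen_tc : IsSphEigen fun P => (tc P : ℂ) := by
  refine ⟨Complex.continuous_ofReal.comp continuous_tc, fun k _ _ P => ?_⟩
  have : kop k (fun Q => (tc Q : ℂ)) P = ((kop k tc P : ℝ) : ℂ) := by
    simp only [kop, Complex.real_smul, smul_eq_mul, ← Complex.ofReal_mul]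
    exact integral_ofReal
  rw [this, kop_tc, Complex.real_smul, Complex.ofReal_mul]

/-- Spherical eigenfunctions are stable under translations. -/
theorem IsSphEigen.comp_smul {φ : H3 → ℂ} (hφ : IsSphEigen φ) (g : GL (Fin 2) ℂ) :
    IsSphEigen fun Q => φ (g • Q) :=
  ⟨hφ.continuous.comp (continuous_smul_point g), fun k hk hs P => by
    rw [kop_comp_smul, hφ.kop_eq k hk hs]⟩

/-- Multiples of spherical eigenfunctions are spherical eigenfunctions. -/
theorem IsSphEigen.const_mul {φ : H3 → ℂ} (hφ : IsSphEigen φ) (c : ℂ) :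
    IsSphEigen fun Q => c * φ Q :=
  ⟨continuous_const.mul hφ.continuous, fun k hk hs P => by
    have := hφ.kop_eq k hk hs P
    simp only [kop, Complex.real_smul, mul_left_comm _ c] at this ⊢
    rw [integral_const_mul, this]⟩

/-- Sums of spherical eigenfunctions are spherical eigenfunctions. -/
theorem IsSphEigen.add {φ ψ : H3 → ℂ} (hφ : IsSphEigen φ) (hψ : IsSphEigen ψ) :
    IsSphEigen fun Q => φ Q + ψ Q :=
  ⟨hφ.continuous.add hψ.continuous, fun k hk hs P => by
    have h1 := hφ.kop_eq k hk hs P
    have h2 := hψ.kop_eq k hk hs P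
    simp only [kop, smul_add] at h1 h2 ⊢
    rw [integral_add (integrable_profile_smul hk hs P hφ.continuous)
      (integrable_profile_smul hk hs P hψ.continuous), h1, h2]⟩

/-! ### Two-point homogeneity -/

/-- The point at distance `arcosh u` above the base point. -/
def axisPt (u : ℝ) : H3 := pt 0 (max u 1 + Real.sqrt (max u 1 ^ 2 - 1))

theorem continuous_axisPt : Continuous axisPt := by
  have hc : Continuous fun u : ℝ => max u 1 + Real.sqrt (max u 1 ^ 2 - 1) := by fun_prop
  exact continuousOn_pt.comp_continuous (continuous_const.prodMk hc) fun u =>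
    add_pos_of_pos_of_nonneg (lt_of_lt_of_le one_pos (le_max_right _ _)) (Real.sqrt_nonneg _)

theorem cdist_pt_zero {t : ℝ} (ht : 0 < t) : cdist origin (pt 0 t) = (1 + t ^ 2) / (2 * t) := by
  rw [origin_eq, cdist_pt _ _ one_pos ht]; simp

theorem cdist_axisPt (u : ℝ) : cdist origin (axisPt u) = max u 1 := by
  have h1 : (1 : ℝ) ≤ max u 1 := le_max_right _ _
  have hpos : 0 < max u 1 + Real.sqrt (max u 1 ^ 2 - 1) :=
    add_pos_of_pos_of_nonneg (by linarith) (Real.sqrt_nonneg _)
  have hs : Real.sqrt (max u 1 ^ 2 - 1) ^ 2 = max u 1 ^ 2 - 1 := Real.sq_sqrt (by nlinarith)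
  rw [axisPt, cdist_pt_zero hpos, div_eq_iff (by positivity)]
  linear_combination hs

theorem smul_unitary_origin (g : GL (Fin 2) ℂ)
    (hg : (g : Matrix (Fin 2) (Fin 2) ℂ) * (g : Matrix (Fin 2) (Fin 2) ℂ)ᴴ = 1) :
    g • origin = origin := by
  refine H3.ext ?_
  have h : ‖(g : Matrix (Fin 2) (Fin 2) ℂ).det‖ ^ 2 = 1 := by
    have := congrArg Matrix.det hg
    rw [Matrix.det_mul, Matrix.det_conjTranspose, Matrix.det_one, Complex.star_def,
      Complex.mul_conj'] at this
    exact_mod_cast this
  have h' : ‖(g : Matrix (Fin 2) (Fin 2) ℂ).det‖ = 1 :=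
    (pow_eq_one_iff_of_nonneg (norm_nonneg _) two_ne_zero).mp h
  rw [smul_mat, h']
  simp [origin, hg]

/-- Every point is moved onto the upper axis by the stabiliser of the base point. -/
theorem exists_smul_axisPt (Q : H3) :
    ∃ g : GL (Fin 2) ℂ, g • origin = origin ∧ g • Q = axisPt (cdist origin Q) := by
  have hH := Q.posDef.isHermitian
  set U : Matrix (Fin 2) (Fin 2) ℂ := (hH.eigenvectorUnitary : Matrix (Fin 2) (Fin 2) ℂ)
  set e : Fin 2 → ℝ := hH.eigenvalues
  have hUU : U * star U = 1 := Unitary.coe_mul_star_self _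
  have hUU' : star U * U = 1 := Unitary.coe_star_mul_self _
  have hspec : Q.mat = U * Matrix.diagonal (fun i => (e i : ℂ)) * star U := by
    conv_lhs => rw [hH.spectral_theorem, Unitary.conjStarAlgAut_apply]
    rfl
  set g : GL (Fin 2) ℂ := ⟨star U, U, hUU', hUU⟩
  have hgo : g • origin = origin :=
    smul_unitary_origin g (by simp [g, ← Matrix.star_eq_conjTranspose, hUU'])
  have hdet : ‖(star U).det‖ = 1 := by
    have := congrArg (fun M => ‖Matrix.det M‖) hUU'
    simp only [Matrix.det_mul, Matrix.star_eq_conjTranspose, Matrix.det_conjTranspose,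
      Matrix.det_one, norm_mul, norm_star, norm_one] at this
    rw [Matrix.star_eq_conjTranspose, Matrix.det_conjTranspose, norm_star]
    exact (mul_self_eq_one_iff.mp this).resolve_right (by linarith [norm_nonneg U.det])
  have hgQ : (g • Q).mat = Matrix.diagonal (fun i => (e i : ℂ)) := by
    rw [smul_mat, show ((g : Matrix (Fin 2) (Fin 2) ℂ)) = star U from rfl, hdet]
    rw [← Matrix.star_eq_conjTranspose, star_star, hspec]
    simp only [inv_one, Complex.ofReal_one, one_smul, ← Matrix.mul_assoc, hUU', one_mul]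
    rw [Matrix.mul_assoc, hUU', mul_one]
  obtain ⟨a, ha, he⟩ : ∃ a : ℝ, 0 < a ∧ g • Q = pt 0 a := by
    have hd := (g • Q).det_eq
    have hpos1 : 0 < e 1 := by
      have := mat_one_one_pos (g • Q)
      simpa [hgQ] using this
    rw [hgQ, Matrix.det_diagonal, Fin.prod_univ_two] at hd
    have hd' : e 0 * e 1 = 1 := by exact_mod_cast hd
    refine ⟨(e 1)⁻¹, inv_pos.mpr hpos1, H3.ext ?_⟩
    rw [hgQ, mat_pt _ (inv_pos.mpr hpos1)]
    have h0 : e 0 = (e 1)⁻¹ := eq_inv_of_mul_eq_one_left hd'
    ext i j
    fin_cases i <;> fin_cases j <;> simp [h0]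
    field_simp [Complex.ofReal_ne_zero.mpr hpos1.ne']
  have hdist : cdist origin Q = (1 + a ^ 2) / (2 * a) := by
    rw [← cdist_smul g, hgo, he, cdist_pt_zero ha]
  have h1 := one_le_cdist origin Q
  rcases le_total 1 a with h | h
  · refine ⟨g, hgo, ?_⟩
    rw [he, axisPt, max_eq_left h1, hdist]
    congr 1
    have : ((1 + a ^ 2) / (2 * a)) ^ 2 - 1 = ((a ^ 2 - 1) / (2 * a)) ^ 2 := by field_simp; ring
    rw [this, Real.sqrt_sq (div_nonneg (by nlinarith) (by positivity))]
    field_simp
    ring
  · have hw : wInv • origin = origin := by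
      rw [origin_eq, wInv_smul 0 one_pos]; simp
    refine ⟨wInv * g, by rw [mul_smul, hgo, hw], ?_⟩
    rw [mul_smul, he, wInv_smul 0 ha, axisPt, max_eq_left h1, hdist]
    simp only [map_zero, neg_zero, zero_div, zero_add]
    congr 1
    have : ((1 + a ^ 2) / (2 * a)) ^ 2 - 1 = ((1 - a ^ 2) / (2 * a)) ^ 2 := by field_simp; ring
    rw [this, Real.sqrt_sq (div_nonneg (by nlinarith) (by positivity))]
    field_simp
    ring

theorem exists_smul_pair (P R : H3) :
    ∃ g : GL (Fin 2) ℂ, g • P = origin ∧ g • R = axisPt (cdist P R) := by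
  obtain ⟨h, hh⟩ := exists_smul_eq P origin
  obtain ⟨g, hg, hg'⟩ := exists_smul_axisPt (h • R)
  refine ⟨g * h, by rw [mul_smul, hh, hg], ?_⟩
  rw [mul_smul, hg', ← cdist_smul h P R, hh]

/-! ### Convolution -/

/-- The convolution of two profiles. -/
def conv (k l : ℝ → ℝ) (u : ℝ) : ℝ :=
  max 0 (min 1 u) * ∫ Q, k (cdist origin Q) * l (cdist Q (axisPt u)) ∂vol

/-- The composite of two radial kernels is the kernel of `conv k l`. -/
theorem integral_mul_eq_conv (k l : ℝ → ℝ) (P R : H3) :
    ∫ Q, k (cdist P Q) * l (cdist Q R) ∂vol = conv k l (cdist P R) := by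
  obtain ⟨g, hgP, hgR⟩ := exists_smul_pair P R
  rw [conv, ← hgR, ← hgP, min_eq_left (one_le_cdist P R), max_eq_right zero_le_one, one_mul]
  rw [← integral_smul_vol g fun Q => k (cdist (g • P) Q) * l (cdist Q (g • R))]
  simp only [cdist_smul]

/-- Radial kernels commute. -/
theorem conv_comm (k l : ℝ → ℝ) (P R : H3) :
    conv k l (cdist P R) = conv l k (cdist P R) := by
  obtain ⟨g, hg, hg'⟩ := exists_swap P R
  rw [← integral_mul_eq_conv, ← integral_mul_eq_conv,
    ← integral_smul_vol g fun Q => l (cdist P Q) * k (cdist Q R)]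
  refine integral_congr_ae (Eventually.of_forall fun Q => ?_)
  have h1 : cdist P (g • Q) = cdist R Q := by rw [← cdist_smul g R Q, hg']
  have h2 : cdist (g • Q) R = cdist Q P := by rw [← cdist_smul g Q P, hg]
  simp only [h1, h2]
  rw [cdist_comm P Q, cdist_comm Q R, mul_comm]

/-- The convolution of profiles is continuous. -/
theorem continuous_conv {k l : ℝ → ℝ} (hk : Continuous k) (hl : Continuous l)
    (hls : HasCompactSupport l) : Continuous (conv k l) := by
  refine Continuous.mul (by fun_prop) ?_
  have : (fun u => ∫ Q, k (cdist origin Q) * l (cdist Q (axisPt u)) ∂vol)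
      = fun u => kop l (fun Q => k (cdist origin Q)) (axisPt u) := by
    funext u
    simp only [kop, smul_eq_mul]
    congr 1
    funext Q
    rw [cdist_comm Q, mul_comm]
  rw [this]
  exact (continuous_kop hl hls (continuous_profile hk origin)).comp continuous_axisPt

/-- The convolution of compactly supported profiles has compact support. -/
theorem hasCompactSupport_conv {k l : ℝ → ℝ} (hks : HasCompactSupport k)
    (hls : HasCompactSupport l) : HasCompactSupport (conv k l) := by
  obtain ⟨Rk, hRk⟩ := exists_bound_profile hks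
  obtain ⟨Rl, hRl⟩ := exists_bound_profile hls
  obtain ⟨C, hC, hCN⟩ := exists_compact_cdist_le (isCompact_cdist_le origin Rk) Rl
  obtain ⟨B, hB⟩ := hC.exists_bound_of_continuousOn (continuous_cdist_left origin).continuousOn
  refine HasCompactSupport.intro (isCompact_Icc (a := 0) (b := max B 1)) fun u hu => ?_
  rw [conv]
  rcases lt_or_ge u 0 with h | h
  · rw [max_eq_left (min_le_of_right_le h.le), zero_mul]
  have hu' : max B 1 < u := not_le.mp fun h' => hu ⟨h, h'⟩
  refine mul_eq_zero_of_right _ (integral_eq_zero_of_ae (Eventually.of_forall fun Q => ?_))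
  simp only [Pi.zero_apply]
  by_contra hne
  obtain ⟨h1, h2⟩ := mul_ne_zero_iff.mp hne
  have hQ : cdist origin Q ≤ Rk := not_lt.mp fun h' => h1 (hRk _ h')
  have hA := hB _ (hCN Q hQ _ (not_lt.mp fun h' => h2 (hRl _ h')))
  rw [cdist_axisPt, max_eq_left ((le_max_right B 1).trans hu'.le)] at hA
  exact absurd ((le_abs_self u).trans hA) (not_le.mpr ((le_max_left B 1).trans_lt hu'))

variable [CompleteSpace E] in
/-- Radial operators compose by convolution of profiles. -/
theorem kop_kop {k l : ℝ → ℝ} (hk : Continuous k) (hks : HasCompactSupport k) (hl : Continuous l)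
    (hls : HasCompactSupport l) {φ : H3 → E} (hφ : Continuous φ) (P : H3) :
    kop k (kop l φ) P = kop (conv k l) φ P := by
  obtain ⟨Rk, hRk⟩ := exists_bound_profile hks
  obtain ⟨Rl, hRl⟩ := exists_bound_profile hls
  obtain ⟨C, hC, hCN⟩ := exists_compact_cdist_le (isCompact_cdist_le P Rk) Rl
  calc kop k (kop l φ) P
      = ∫ Q, ∫ R, (k (cdist P Q) * l (cdist Q R)) • φ R ∂vol ∂vol := by
        simp only [kop, mul_smul, integral_smul]
    _ = ∫ R, ∫ Q, (k (cdist P Q) * l (cdist Q R)) • φ R ∂vol ∂vol := by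
        refine integral_integral_swap_of_hasCompactSupport ?_ ?_
        · exact (Continuous.smul ((hk.comp (continuous_cdist.comp (continuous_const.prodMk
            continuous_fst))).mul (hl.comp continuous_cdist)) (hφ.comp continuous_snd))
        · refine HasCompactSupport.intro ((isCompact_cdist_le P Rk).prod hC) fun q hq => ?_
          obtain ⟨Q, R⟩ := q
          simp only [Function.uncurry_apply_pair]
          by_contra hne
          obtain ⟨h, -⟩ := smul_ne_zero_iff.mp hne
          obtain ⟨h1, h2⟩ := mul_ne_zero_iff.mp h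
          have hQ : cdist P Q ≤ Rk := not_lt.mp fun h' => h1 (hRk _ h')
          exact hq ⟨hQ, hCN Q hQ R (not_lt.mp fun h' => h2 (hRl _ h'))⟩
    _ = kop (conv k l) φ P := by
        simp only [kop, integral_smul_const, integral_mul_eq_conv]

/-- The spherical transform is multiplicative. -/
theorem sph_conv {k l : ℝ → ℝ} (hk : Continuous k) (hks : HasCompactSupport k) (hl : Continuous l)
    (hls : HasCompactSupport l) : sph (conv k l) = sph k * sph l := by
  have h := kop_kop hk hks hl hls continuous_tc origin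
  have hfun : kop l tc = fun Q => sph l • tc Q := funext fun Q => kop_tc l Q
  rw [kop_tc, hfun] at h
  have h2 : kop k (fun Q => sph l • tc Q) origin = sph l * kop k tc origin := by
    simp only [kop, smul_eq_mul]
    rw [← integral_const_mul]
    congr 1
    funext Q
    ring
  rw [h2, kop_tc, origin_eq, tc_pt _ one_pos, mul_one, mul_one] at h
  rw [← h, mul_comm]

end Fermat.Agent.LT.H3
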