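import Fermat.Agent.LT.H3.Product
import Fermat.Agent.LT.Setup.Operators

/-!
# Radial eigenfunctions on `Y` and their slices

A continuous function on `Y U = (ι → H3) × classes` is an eigenfunction of all radial operators
exactly when, on every component and in every variable separately, it is a spherical eigenfunction
on hyperbolic three-space.
-/

set_option autoImplicit false

noncomputable section

open MeasureTheory
open NumberField (InfinitePlace)

namespace Fermat.Agent.LT

variable {F : Type*} [Field F] [NumberField F] {U : Level F}

/-- Radial eigenfunctions are the functions which are product eigenfunctions on every component. -/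
theorem isRadialEigen_iff_isPiEigen (φ : Y U → ℂ) :
    IsRadialEigen φ ↔ ∀ c, H3.IsPiEigen fun P => φ (P, c) := by
  constructor
  · intro h c k hk hs P
    rw [Complex.real_smul]
    exact h ⟨k, hk, hs⟩ (P, c)
  · intro h k y
    have := h y.2 k.profile k.continuous k.hasCompactSupport y.1
    rw [Complex.real_smul] at this
    exact this

/-- The slices of a radial eigenfunction are spherical eigenfunctions. -/
theorem IsRadialEigen.isSphEigen_slice [DecidableEq (InfinitePlace F)] {φ : Y U → ℂ}
    (h : IsRadialEigen φ) (hc : ∀ c, Continuous fun P => φ (P, c)) (y : Y U) (w : InfinitePlace F) :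
    H3.IsSphEigen fun R => φ (Function.update y.1 w R, y.2) :=
  ((isRadialEigen_iff_isPiEigen φ).mp h y.2).slice (hc y.2) y.1 w

/-- A continuous function all of whose slices are spherical eigenfunctions is radial. -/
theorem isRadialEigen_of_slice [DecidableEq (InfinitePlace F)] {φ : Y U → ℂ}
    (hc : ∀ c, Continuous fun P => φ (P, c))
    (h : ∀ (y : Y U) (w : InfinitePlace F),
      H3.IsSphEigen fun R => φ (Function.update y.1 w R, y.2)) :
    IsRadialEigen φ :=
  (isRadialEigen_iff_isPiEigen φ).mpr fun c =>
    H3.isPiEigen_of_slice (hc c) fun P w => h (P, c) w

end Fermat.Agent.LT
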