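import Fermat.Agent.LT.H3.Sph
import Fermat.Agent.LT.H3.RadialEigen

/-!
# The kernels `exp (-A cosh d)`

A bounded radial eigenfunction is an eigenfunction of `exp (-A · cdist)` with value `4π K₀(A)/A`.
-/

set_option autoImplicit false

noncomputable section

open MeasureTheory Real Set Filter Topology
open scoped ENNReal

namespace Fermat.Agent.LT

namespace H3

/-- `u exp (-A u) ≤ (2 / A) exp (-A u / 2)`. -/
theorem mul_exp_neg_le {A u : ℝ} (hA : 0 < A) : u * exp (-(A * u)) ≤ 2 / A * exp (-(A / 2 * u)) := by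
  have h : u ≤ 2 / A * exp (A / 2 * u) := by
    have := add_one_le_exp (A / 2 * u)
    rw [div_mul_eq_mul_div, le_div_iff₀ hA]
    linarith
  calc u * exp (-(A * u)) ≤ 2 / A * exp (A / 2 * u) * exp (-(A * u)) := by gcongr
    _ = 2 / A * exp (-(A / 2 * u)) := by rw [mul_assoc, ← exp_add]; ring_nf

theorem integrableOn_exp_mul_Ici {A : ℝ} (hA : 0 < A) :
    IntegrableOn (fun u => u * exp (-(A * u))) (Ici (1 : ℝ)) := by
  have h := ((exp_neg_integrableOn_Ioi 0 (b := A / 2) (by positivity)).mono_set
    (Ici_subset_Ioi.mpr one_pos)).const_mul (2 / A)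
  refine Integrable.mono' h (by fun_prop)
    ((ae_restrict_mem measurableSet_Ici).mono fun u (hu : 1 ≤ u) => ?_)
  rw [norm_of_nonneg (mul_nonneg (by linarith) (exp_pos _).le), neg_mul]
  exact mul_exp_neg_le hA

/-- `exp (-A cosh d)` is integrable. -/
theorem integrable_exp_neg_cdist {A : ℝ} (hA : 0 < A) (P : H3) :
    Integrable (fun Q => exp (-(A * cdist P Q))) vol := by
  have horig : Integrable (fun Q => exp (-(A * cdist origin Q))) vol := by
    refine ⟨((continuous_cdist_left origin).const_mul A).neg.rexp.aestronglyMeasurable, ?_⟩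
    rw [hasFiniteIntegral_iff_ofReal (Eventually.of_forall fun Q => (exp_pos _).le)]
    have e : (fun Q => ENNReal.ofReal (exp (-(A * cdist origin Q))))
        = fun Q => (fun p : ℝ × ℝ => ENNReal.ofReal (exp (-(A * p.1)))) (axisCoord Q) :=
      funext fun Q => by simp only [axisCoord_fst]
    rw [e, lintegral_axisCoord (f := fun p : ℝ × ℝ => ENNReal.ofReal (exp (-(A * p.1))))
      (by fun_prop)]
    refine ENNReal.mul_lt_top ENNReal.ofReal_lt_top ?_
    have hreg : MeasurableSet axisRegion :=
      (measurableSet_le measurable_const measurable_fst).inter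
        (measurableSet_le (measurable_snd.pow_const 2) ((measurable_fst.pow_const 2).sub_const 1))
    rw [← lintegral_indicator hreg, Measure.volume_eq_prod,
      lintegral_prod _ ((Measurable.indicator (by fun_prop) hreg).aemeasurable)]
    calc ∫⁻ a, ∫⁻ b, axisRegion.indicator
          (fun p : ℝ × ℝ => ENNReal.ofReal (exp (-(A * p.1)))) (a, b)
        ≤ ∫⁻ a, (Ici (1 : ℝ)).indicator
            (fun a => ENNReal.ofReal (2 * (a * exp (-(A * a))))) a := by
          refine lintegral_mono fun a => ?_
          by_cases ha : 1 ≤ a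
          · rw [indicator_of_mem (show a ∈ Ici (1 : ℝ) from ha)]
            calc ∫⁻ b, axisRegion.indicator
                  (fun p : ℝ × ℝ => ENNReal.ofReal (exp (-(A * p.1)))) (a, b)
                ≤ ∫⁻ b, (Icc (-a) a).indicator (fun _ => ENNReal.ofReal (exp (-(A * a)))) b := by
                  refine lintegral_mono fun b => ?_
                  by_cases hb : (a, b) ∈ axisRegion
                  · have hh : b ^ 2 ≤ a ^ 2 - 1 := hb.2
                    rw [indicator_of_mem hb, indicator_of_mem (show b ∈ Icc (-a) a from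
                      ⟨by nlinarith, by nlinarith⟩)]
                  · rw [indicator_of_notMem hb]; exact zero_le
              _ = ENNReal.ofReal (2 * (a * exp (-(A * a)))) := by
                  rw [lintegral_indicator_const measurableSet_Icc, Real.volume_Icc,
                    ← ENNReal.ofReal_mul (exp_pos _).le]
                  congr 1
                  ring
          · have : ∀ b, (a, b) ∉ axisRegion := fun b h => ha h.1
            simp [indicator_of_notMem (this _)]
      _ < ∞ := by
          rw [lintegral_indicator measurableSet_Ici]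
          exact (hasFiniteIntegral_iff_ofReal ((ae_restrict_mem measurableSet_Ici).mono
            fun u (hu : 1 ≤ u) => by positivity)).mp
            ((integrableOn_exp_mul_Ici hA).const_mul 2).2
  obtain ⟨g, hg⟩ := exists_smul_eq origin P
  have e : (fun Q => exp (-(A * cdist P Q))) ∘ (fun Q => g • Q)
      = fun Q => exp (-(A * cdist origin Q)) :=
    funext fun Q => by simp only [Function.comp_apply, ← hg, cdist_smul]
  rw [← e] at horig
  exact ((measurePreserving_smul g).integrable_comp_emb (measurableEmbedding_smul g)).mp horig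

theorem arcosh_le_two_mul {u : ℝ} (hu : 1 ≤ u) : arcosh u ≤ 2 * u := by
  have hs : √(u ^ 2 - 1) ≤ u := Real.sqrt_le_iff.mpr ⟨by linarith, by linarith⟩
  have h0 : 0 < u + √(u ^ 2 - 1) := add_pos_of_pos_of_nonneg (by linarith) (Real.sqrt_nonneg _)
  rw [arcosh]
  exact (Real.log_le_sub_one_of_pos h0).trans (by linarith)

theorem integrableOn_exp_arcosh {A : ℝ} (hA : 0 < A) :
    IntegrableOn (fun u => exp (-(A * u)) * arcosh u) (Ici (1 : ℝ)) := by
  refine Integrable.mono' ((integrableOn_exp_mul_Ici hA).const_mul 2)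
    (ContinuousOn.aestronglyMeasurable ((by fun_prop : Continuous fun u : ℝ => exp (-(A * u))
      ).continuousOn.mul continuousOn_arcosh) measurableSet_Ici)
    ((ae_restrict_mem measurableSet_Ici).mono fun u (hu : 1 ≤ u) => ?_)
  rw [norm_of_nonneg (mul_nonneg (exp_pos _).le (arcosh_nonneg hu)), ← mul_assoc, mul_comm]
  exact mul_le_mul_of_nonneg_right (arcosh_le_two_mul hu) (exp_pos _).le

theorem integral_exp_arcosh {A : ℝ} (hA : 0 < A) :
    ∫ u in Ici (1 : ℝ), exp (-(A * u)) * arcosh u = K0 A / A := by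
  have himg : cosh '' Ici (0 : ℝ) = Ici 1 := by
    refine Subset.antisymm (by rintro _ ⟨x, -, rfl⟩; exact one_le_cosh x) fun u (hu : 1 ≤ u) => ?_
    exact ⟨arcosh u, arcosh_nonneg hu, cosh_arcosh hu⟩
  have hinj : InjOn cosh (Ici (0 : ℝ)) := fun x hx y hy h => by
    rw [← arcosh_cosh hx, ← arcosh_cosh hy, h]
  have hd : ∀ x ∈ Ici (0 : ℝ), HasDerivWithinAt cosh (sinh x) (Ici (0 : ℝ)) x :=
    fun x _ => (hasDerivAt_cosh x).hasDerivWithinAt
  have hint := (integrableOn_image_iff_integrableOn_abs_deriv_smul measurableSet_Ici hd hinj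
    (fun u => exp (-(A * u)) * arcosh u)).mp (by rw [himg]; exact integrableOn_exp_arcosh hA)
  conv_lhs => rw [← himg]
  rw [integral_image_eq_integral_abs_deriv_smul measurableSet_Ici hd hinj,
    integral_Ici_eq_integral_Ioi]
  have hcongr : ∀ x ∈ Ioi (0 : ℝ), |sinh x| • (exp (-(A * cosh x)) * arcosh (cosh x))
      = x * sinh x * exp (-(A * cosh x)) := fun x (hx : 0 < x) => by
    rw [arcosh_cosh hx.le, abs_of_pos (sinh_pos_iff.mpr hx), smul_eq_mul]; ring
  have hB : IntegrableOn (fun x => x * sinh x * exp (-(A * cosh x))) (Ioi (0 : ℝ)) :=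
    (hint.mono_set Ioi_subset_Ici_self).congr_fun hcongr measurableSet_Ioi
  rw [setIntegral_congr_fun measurableSet_Ioi hcongr, K0_eq_integral_cosh hA, ← integral_div]
  have hle : ∀ x : ℝ, 0 ≤ x → exp (-(A * cosh x)) ≤ exp (-A * x) := fun x hx => by
    rw [neg_mul]
    gcongr
    have h1 := Real.self_le_sinh_iff.mpr hx
    linarith [Real.sinh_lt_cosh x]
  have hE : IntegrableOn (fun x => exp (-(A * cosh x)) / A) (Ioi (0 : ℝ)) :=
    (Integrable.mono' (exp_neg_integrableOn_Ioi 0 hA) (by fun_prop)
      ((ae_restrict_mem measurableSet_Ioi).mono fun x (hx : 0 < x) => by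
        rw [norm_of_nonneg (exp_pos _).le]; exact hle x hx.le)).div_const A
  have hderiv : ∀ x ∈ Ici (0 : ℝ), HasDerivAt (fun x => -(x * exp (-(A * cosh x))) / A)
      (x * sinh x * exp (-(A * cosh x)) - exp (-(A * cosh x)) / A) x := fun x _ => by
    have h1 := ((hasDerivAt_cosh x).const_mul A).neg.exp
    have := (((hasDerivAt_id x).mul h1).neg).div_const A
    refine this.congr_deriv ?_
    simp
    field_simp
    ring
  have hlim : Tendsto (fun x => -(x * exp (-(A * cosh x))) / A) atTop (𝓝 0) := by
    have h := (Real.tendsto_pow_mul_exp_neg_atTop_nhds_zero 1).comp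
      (tendsto_id.const_mul_atTop hA)
    refine squeeze_zero_norm' (a := fun x => 1 / (A * A) * ((A * x) * exp (-(A * x)))) ?_
      (by simpa using h.const_mul (1 / (A * A)))
    filter_upwards [eventually_ge_atTop (0 : ℝ)] with x hx
    rw [norm_div, norm_neg, norm_of_nonneg (by positivity), norm_of_nonneg hA.le,
      div_le_iff₀ hA]
    calc x * exp (-(A * cosh x)) ≤ x * exp (-A * x) := mul_le_mul_of_nonneg_left (hle x hx) hx
      _ = 1 / (A * A) * ((A * x) * exp (-(A * x))) * A := by rw [neg_mul]; field_simp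
  have h := integral_Ioi_of_hasDerivAt_of_tendsto' hderiv (hB.sub hE) hlim
  rw [integral_sub hB hE] at h
  simp at h
  linarith

/-- The approximating profiles. -/
def expCut (A : ℝ) (n : ℕ) (u : ℝ) : ℝ :=
  exp (-(A * u)) * (max 0 (min 1 (u + 1)) * max 0 (min 1 ((n : ℝ) + 2 - u)))

theorem continuous_expCut (A : ℝ) (n : ℕ) : Continuous (expCut A n) := by
  unfold expCut; fun_prop

theorem hasCompactSupport_expCut (A : ℝ) (n : ℕ) : HasCompactSupport (expCut A n) :=
  HasCompactSupport.intro (isCompact_Icc (a := -1) (b := (n : ℝ) + 2)) fun u hu => by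
    refine mul_eq_zero_of_right _ ?_
    rcases lt_or_ge u (-1) with h | h
    · exact mul_eq_zero_of_left (max_eq_left (min_le_of_right_le (by linarith))) _
    · refine mul_eq_zero_of_right _ (max_eq_left (min_le_of_right_le ?_))
      linarith [not_le.mp fun h' => hu ⟨h, h'⟩]

theorem abs_expCut_le (A : ℝ) (n : ℕ) (u : ℝ) : |expCut A n u| ≤ exp (-(A * u)) := by
  rw [expCut, abs_of_nonneg (mul_nonneg (exp_pos _).le
    (mul_nonneg (le_max_left _ _) (le_max_left _ _)))]
  exact mul_le_of_le_one_right (exp_pos _).le (mul_le_one₀ (max_le zero_le_one (min_le_left _ _))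
    (le_max_left _ _) (max_le zero_le_one (min_le_left _ _)))

theorem tendsto_expCut (A : ℝ) {u : ℝ} (hu : 1 ≤ u) :
    Tendsto (fun n => expCut A n u) atTop (𝓝 (exp (-(A * u)))) := by
  refine tendsto_const_nhds.congr' ?_
  obtain ⟨N, hN⟩ := exists_nat_ge u
  filter_upwards [eventually_ge_atTop N] with n hn
  have : u ≤ n := hN.trans (by exact_mod_cast hn)
  rw [expCut, min_eq_left (by linarith), min_eq_left (by linarith), max_eq_right zero_le_one,
    mul_one, mul_one]

theorem sph_expCut (A : ℝ) (n : ℕ) :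
    sph (expCut A n) = 4 * π * ∫ u in Ici (1 : ℝ), expCut A n u * arcosh u := by
  obtain ⟨C, hC⟩ :=
    (hasCompactSupport_expCut A n).exists_bound_of_continuous (continuous_expCut A n)
  obtain ⟨R, hR⟩ := exists_bound_profile (hasCompactSupport_expCut A n)
  exact sph_eq (continuous_expCut A n).measurable hC hR

theorem tendsto_sph_expCut {A : ℝ} (hA : 0 < A) :
    Tendsto (fun n => sph (expCut A n)) atTop (𝓝 (4 * π * (K0 A / A))) := by
  simp only [sph_expCut]
  refine Tendsto.const_mul _ ?_
  rw [← integral_exp_arcosh hA]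
  refine tendsto_integral_of_dominated_convergence (fun u => exp (-(A * u)) * arcosh u)
    (fun n => ((continuous_expCut A n).continuousOn.mul continuousOn_arcosh).aestronglyMeasurable
      measurableSet_Ici) (integrableOn_exp_arcosh hA) (fun n => ?_)
    ((ae_restrict_mem measurableSet_Ici).mono fun u hu => (tendsto_expCut A hu).mul_const _)
  refine (ae_restrict_mem measurableSet_Ici).mono fun u (hu : 1 ≤ u) => ?_
  rw [norm_mul, Real.norm_eq_abs, Real.norm_of_nonneg (arcosh_nonneg hu)]
  exact mul_le_mul_of_nonneg_right (abs_expCut_le A n u) (arcosh_nonneg hu)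

theorem IsSphEigen.integral_exp_cdist {φ : H3 → ℂ} (hφ : IsSphEigen φ) {C : ℝ}
    (hC : ∀ Q, ‖φ Q‖ ≤ C) {A : ℝ} (hA : 0 < A) (P : H3) :
    ∫ Q, (exp (-(A * cdist P Q)) : ℂ) * φ Q ∂vol = ((4 * π * K0 A / A : ℝ) : ℂ) * φ P := by
  have h1 : Tendsto (fun n => kop (expCut A n) φ P) atTop
      (𝓝 (∫ Q, exp (-(A * cdist P Q)) • φ Q ∂vol)) := by
    refine tendsto_integral_of_dominated_convergence (fun Q => exp (-(A * cdist P Q)) * C)
      (fun n => ((continuous_profile (continuous_expCut A n) P).smul
        hφ.continuous).aestronglyMeasurable)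
      ((integrable_exp_neg_cdist hA P).mul_const C) (fun n => Eventually.of_forall fun Q => ?_)
      (Eventually.of_forall fun Q => (tendsto_expCut A (one_le_cdist P Q)).smul_const _)
    rw [norm_smul, Real.norm_eq_abs]
    exact mul_le_mul (abs_expCut_le A n _) (hC Q) (norm_nonneg _) (exp_pos _).le
  have h2 := tendsto_nhds_unique h1 (((tendsto_sph_expCut hA).smul_const (φ P)).congr fun n =>
    (hφ.kop_eq _ (continuous_expCut A n) (hasCompactSupport_expCut A n) P).symm)
  simp only [Complex.real_smul] at h2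
  rw [show (4 * π * K0 A / A : ℝ) = 4 * π * (K0 A / A) by ring, ← h2]

end H3

namespace Whittaker

variable {F : Type*} [Field F] [NumberField F] {U : Level F}

/-- The two definitions of `K₀` agree. -/
theorem besselK_eq_K0 {A : ℝ} (hA : 0 < A) : besselK A = H3.K0 A :=
  (H3.K0_eq_integral_cosh hA).symm

open Classical in
/-- The eigen field of `IsCuspEigen` from the radial eigen property and boundedness. -/
theorem eigen_of_isRadialEigen {φ : Y U → ℂ} (hr : IsRadialEigen φ)
    (hc : ∀ c, Continuous fun P => φ (P, c)) (hb : ∃ C : ℝ, ∀ y, ‖φ y‖ ≤ C)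
    (w : NumberField.InfinitePlace F) (y : Y U) (A : ℝ) (hA : 0 < A) :
    ∫ Q, (Real.exp (-(A * H3.cdist (y.1 w) Q)) : ℂ) * φ (Function.update y.1 w Q, y.2) ∂H3.vol
      = (sphEigen A : ℂ) * φ y := by
  obtain ⟨C, hC⟩ := hb
  have h := (hr.isSphEigen_slice hc y w).integral_exp_cdist (C := C) (fun Q => hC _) hA (y.1 w)
  rw [h, Function.update_eq_self, sphEigen, besselK_eq_K0 hA]

end Whittaker

end Fermat.Agent.LT
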