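import Fermat.Agent.LT.Hyperbolic
import Mathlib.Analysis.SpecialFunctions.Sqrt
import Mathlib.LinearAlgebra.Matrix.Adjugate
import Mathlib.Topology.Homeomorph.Defs
import Mathlib.Tactic.FinCases

/-!
# Upper half space coordinates on hyperbolic three-space

`pt z t` is the point with Hermitian matrix `t⁻¹ [[|z|² + t², z], [z̄, 1]]`; `zc` and `tc` are the
coordinates. Formulas for the action of the generators and for `cdist`, transitivity, and the
isometries exchanging two points.
-/

set_option autoImplicit false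

noncomputable section

open Matrix
open scoped ComplexOrder ComplexConjugate

namespace Fermat.Agent.LT.H3

/-- An invertible complex matrix from its four entries. -/
def gl (a b c d : ℂ) (h : a * d - b * c ≠ 0) : GL (Fin 2) ℂ :=
  Matrix.GeneralLinearGroup.mkOfDetNeZero !![a, b; c, d] (by rw [Matrix.det_fin_two_of]; exact h)

@[simp] theorem gl_val (a b c d : ℂ) (h : a * d - b * c ≠ 0) :
    (gl a b c d h : Matrix (Fin 2) (Fin 2) ℂ) = !![a, b; c, d] := rfl

/-- The affine map `P ↦ a • P + b` in coordinates. -/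
def affine (a b : ℂ) (ha : a ≠ 0) : GL (Fin 2) ℂ := gl a b 0 1 (by simpa using ha)

/-- The inversion. -/
def wInv : GL (Fin 2) ℂ := gl 0 (-1) 1 0 (by norm_num)

/-- The point with coordinates `(z, t)`, and the base point if `t ≤ 0`. -/
def pt (z : ℂ) (t : ℝ) : H3 :=
  if h : 0 < t then affine (t : ℂ) z (Complex.ofReal_ne_zero.mpr h.ne') • origin else origin

/-- The matrix of the point with coordinates `(z, t)`. -/
theorem mat_pt (z : ℂ) {t : ℝ} (ht : 0 < t) :
    (pt z t).mat = !![((Complex.normSq z + t ^ 2) / t : ℂ), z / t; conj z / t, (t : ℂ)⁻¹] := by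
  have htc : (t : ℂ) ≠ 0 := Complex.ofReal_ne_zero.mpr ht.ne'
  have hd : ‖((affine (t : ℂ) z htc : GL (Fin 2) ℂ) : Matrix (Fin 2) (Fin 2) ℂ).det‖ = t := by
    simp [affine, Matrix.det_fin_two_of, abs_of_pos ht]
  rw [pt, dif_pos ht, smul_mat, hd]
  ext i j
  simp only [Matrix.smul_apply, Matrix.mul_apply, Fin.sum_univ_two, Matrix.conjTranspose_apply]
  fin_cases i <;> fin_cases j <;>
    simp [affine, origin, Complex.normSq_eq_conj_mul_self] <;>
    field_simp
  ring

/-- The height coordinate. -/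
def tc (P : H3) : ℝ := ((P.mat 1 1).re)⁻¹

/-- The horizontal coordinate. -/
def zc (P : H3) : ℂ := P.mat 0 1 * (tc P : ℂ)

/-- The lower right entry is positive. -/
theorem mat_one_one_pos (P : H3) : 0 < (P.mat 1 1).re :=
  (Complex.pos_iff.mp (P.posDef.diag_pos (i := 1))).1

/-- The height is positive. -/
theorem tc_pos (P : H3) : 0 < tc P := inv_pos.mpr (mat_one_one_pos P)

/-- The lower right entry is real. -/
theorem mat_one_one (P : H3) : P.mat 1 1 = ((P.mat 1 1).re : ℂ) := by
  refine Complex.ext rfl ?_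
  simpa using (Complex.pos_iff.mp (P.posDef.diag_pos (i := 1))).2.symm

/-- The lower left entry is the conjugate of the upper right one. -/
theorem mat_one_zero (P : H3) : P.mat 1 0 = conj (P.mat 0 1) := by
  rw [← P.posDef.isHermitian.apply 1 0]; rfl

/-- The height of `pt z t` is `t`. -/
theorem tc_pt (z : ℂ) {t : ℝ} (ht : 0 < t) : tc (pt z t) = t := by
  rw [tc, mat_pt z ht]
  simp [← Complex.ofReal_inv]

/-- The horizontal coordinate of `pt z t` is `z`. -/
theorem zc_pt (z : ℂ) {t : ℝ} (ht : 0 < t) : zc (pt z t) = z := by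
  rw [zc, tc_pt z ht, mat_pt z ht]
  have := Complex.ofReal_ne_zero.mpr ht.ne'
  simp [this]

/-- A point is recovered from its coordinates. -/
theorem pt_coord (P : H3) : pt (zc P) (tc P) = P := by
  have h := mat_one_one_pos P
  have hc : ((P.mat 1 1).re : ℂ) ≠ 0 := Complex.ofReal_ne_zero.mpr h.ne'
  have hdet := P.det_eq
  rw [Matrix.det_fin_two, mat_one_zero, mat_one_one] at hdet
  refine H3.ext ?_
  rw [mat_pt _ (tc_pos P)]
  ext i j
  fin_cases i <;> fin_cases j
  · simp only [Fin.zero_eta, Fin.isValue, of_apply, cons_val', cons_val_zero, cons_val_fin_one]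
    rw [Complex.normSq_eq_conj_mul_self]
    simp only [zc, tc, map_mul, Complex.conj_ofReal]
    push_cast
    field_simp
    linear_combination -hdet
  · simp [zc, tc, hc]
  · simp [zc, tc, hc, mat_one_zero, Complex.conj_ofReal]
  · rw [Fin.mk_one, mat_one_one]; simp [tc]

/-- The origin is `pt 0 1`. -/
theorem origin_eq : origin = pt 0 1 := by
  refine H3.ext ?_
  rw [mat_pt 0 one_pos]
  ext i j; fin_cases i <;> fin_cases j <;> simp [origin]

/-- The action of `[a, b; 0, 1]` in coordinates. -/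
theorem affine_smul (a b z : ℂ) (ha : a ≠ 0) {t : ℝ} (ht : 0 < t) :
    affine a b ha • pt z t = pt (a * z + b) (‖a‖ * t) := by
  have hna : 0 < ‖a‖ := norm_pos_iff.mpr ha
  refine H3.ext ?_
  rw [smul_mat, mat_pt z ht, mat_pt _ (mul_pos hna ht)]
  have hd : ‖((affine a b ha : GL (Fin 2) ℂ) : Matrix (Fin 2) (Fin 2) ℂ).det‖ = ‖a‖ := by
    simp [affine, Matrix.det_fin_two_of]
  rw [hd]
  have hac : (‖a‖ : ℂ) ≠ 0 := Complex.ofReal_ne_zero.mpr hna.ne'
  have htc : (t : ℂ) ≠ 0 := Complex.ofReal_ne_zero.mpr ht.ne'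
  have hsq : (‖a‖ : ℂ) ^ 2 = a * conj a := (Complex.mul_conj' a).symm
  ext i j
  simp only [Matrix.smul_apply, Matrix.mul_apply, Fin.sum_univ_two, Matrix.conjTranspose_apply]
  fin_cases i <;> fin_cases j <;>
    simp [affine, Complex.normSq_eq_conj_mul_self] <;>
    field_simp
  linear_combination -(t : ℂ) ^ 2 * hsq

/-- The action of `[0, -1; 1, 0]` in coordinates. -/
theorem wInv_smul (z : ℂ) {t : ℝ} (ht : 0 < t) :
    wInv • pt z t =
      pt (-conj z / ((Complex.normSq z + t ^ 2 : ℝ) : ℂ)) (t / (Complex.normSq z + t ^ 2)) := by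
  set D : ℝ := Complex.normSq z + t ^ 2 with hD
  have hDpos : 0 < D := add_pos_of_nonneg_of_pos (Complex.normSq_nonneg z) (by positivity)
  refine H3.ext ?_
  rw [smul_mat, mat_pt z ht, mat_pt _ (div_pos ht hDpos)]
  have hd : ‖((wInv : GL (Fin 2) ℂ) : Matrix (Fin 2) (Fin 2) ℂ).det‖ = 1 := by
    simp [wInv, Matrix.det_fin_two_of]
  rw [hd]
  have htc : (t : ℂ) ≠ 0 := Complex.ofReal_ne_zero.mpr ht.ne'
  have hDc : (D : ℂ) ≠ 0 := Complex.ofReal_ne_zero.mpr hDpos.ne'
  have hDe : (D : ℂ) = conj z * z + (t : ℂ) ^ 2 := by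
    rw [hD]; push_cast [Complex.normSq_eq_conj_mul_self]; ring
  ext i j
  simp only [Matrix.smul_apply, Matrix.mul_apply, Fin.sum_univ_two, Matrix.conjTranspose_apply]
  fin_cases i <;> fin_cases j <;>
    simp [wInv, Complex.normSq_eq_conj_mul_self] <;>
    field_simp
  · linear_combination hDe
  · linear_combination -hDe

/-- `GL(2, ℂ)` is transitive on `H³`. -/
theorem exists_smul_origin (P : H3) : ∃ g : GL (Fin 2) ℂ, g • origin = P := by
  refine ⟨affine (tc P : ℂ) (zc P) (Complex.ofReal_ne_zero.mpr (tc_pos P).ne'), ?_⟩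
  conv_rhs => rw [← pt_coord P]
  rw [pt, dif_pos (tc_pos P)]

/-- `GL₂(ℂ)` acts transitively. -/
theorem exists_smul_eq (P Q : H3) : ∃ g : GL (Fin 2) ℂ, g • P = Q := by
  obtain ⟨g, hg⟩ := exists_smul_origin P
  obtain ⟨h, hh⟩ := exists_smul_origin Q
  exact ⟨h * g⁻¹, by rw [mul_smul, inv_smul_eq_iff.mpr hg.symm, hh]⟩

/-- The hyperbolic cosine of the distance in coordinates. -/
theorem cdist_pt (z w : ℂ) {t s : ℝ} (ht : 0 < t) (hs : 0 < s) :
    cdist (pt z t) (pt w s) = (Complex.normSq (z - w) + t ^ 2 + s ^ 2) / (2 * t * s) := by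
  have hdet := (pt z t).det_eq
  have hinv : (pt z t).mat⁻¹ = (pt z t).mat.adjugate := by
    rw [Matrix.inv_def, hdet]; simp
  rw [cdist, hinv, mat_pt z ht, mat_pt w hs, Matrix.adjugate_fin_two_of, Matrix.trace_fin_two]
  simp only [Matrix.mul_apply, Fin.sum_univ_two, of_apply, cons_val', cons_val_zero, cons_val_one,
    cons_val_fin_one, Complex.add_re, Complex.mul_re, Complex.neg_re, Complex.neg_im,
    Complex.div_ofReal_re, Complex.div_ofReal_im, Complex.conj_re, Complex.conj_im,
    ← Complex.ofReal_inv, ← Complex.ofReal_pow, ← Complex.ofReal_add, ← Complex.ofReal_div,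
    Complex.ofReal_re, Complex.ofReal_im, Complex.normSq_apply, Complex.sub_re, Complex.sub_im]
  field_simp
  ring

/-- The hyperbolic cosine of the distance in coordinates. -/
theorem cdist_eq (P Q : H3) :
    cdist P Q = (Complex.normSq (zc P - zc Q) + tc P ^ 2 + tc Q ^ 2) / (2 * tc P * tc Q) := by
  conv_lhs => rw [← pt_coord P, ← pt_coord Q]
  exact cdist_pt _ _ (tc_pos P) (tc_pos Q)

/-- `cdist` is symmetric. -/
theorem cdist_comm (P Q : H3) : cdist P Q = cdist Q P := by
  rw [cdist_eq, cdist_eq, show Complex.normSq (zc P - zc Q) = Complex.normSq (zc Q - zc P) by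
    rw [← Complex.normSq_neg, neg_sub]]
  ring_nf

/-- The hyperbolic cosine of a distance is at least one. -/
theorem one_le_cdist (P Q : H3) : 1 ≤ cdist P Q := by
  rw [cdist_eq, le_div_iff₀ (by have := tc_pos P; have := tc_pos Q; positivity)]
  nlinarith [Complex.normSq_nonneg (zc P - zc Q), sq_nonneg (tc P - tc Q)]

theorem cdist_eq_one_iff (P Q : H3) : cdist P Q = 1 ↔ P = Q := by
  constructor
  · intro h
    rw [cdist_eq, div_eq_one_iff_eq (by have := tc_pos P; have := tc_pos Q; positivity)] at h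
    have hz : Complex.normSq (zc P - zc Q) = 0 := by
      nlinarith [Complex.normSq_nonneg (zc P - zc Q), sq_nonneg (tc P - tc Q)]
    have ht : tc P = tc Q := by
      nlinarith [Complex.normSq_nonneg (zc P - zc Q), sq_nonneg (tc P - tc Q)]
    rw [Complex.normSq_eq_zero, sub_eq_zero] at hz
    rw [← pt_coord P, ← pt_coord Q, hz, ht]
  · rintro rfl
    rw [cdist_eq]
    simp
    field_simp [(tc_pos P).ne']
    ring

@[simp] theorem cdist_self (P : H3) : cdist P P = 1 := (cdist_eq_one_iff P P).mpr rfl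

/-- Any two points are exchanged by some element. -/
theorem exists_swap (P Q : H3) : ∃ g : GL (Fin 2) ℂ, g • P = Q ∧ g • Q = P := by
  suffices key : ∀ R : H3, ∃ g : GL (Fin 2) ℂ, g • origin = R ∧ g • R = origin by
    obtain ⟨h, rfl⟩ := exists_smul_origin P
    obtain ⟨g, hg1, hg2⟩ := key (h⁻¹ • Q)
    refine ⟨h * g * h⁻¹, ?_, ?_⟩
    · rw [mul_smul, mul_smul, inv_smul_smul, hg1, smul_inv_smul]
    · rw [mul_smul, mul_smul, hg2]
  intro R
  obtain ⟨a, b, d, hM⟩ : ∃ (a : ℝ) (b : ℂ) (d : ℝ), R.mat = !![(a : ℂ), b; conj b, (d : ℂ)] := by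
    refine ⟨(R.mat 0 0).re, R.mat 0 1, (R.mat 1 1).re, ?_⟩
    ext i j
    fin_cases i <;> fin_cases j
    · exact (Complex.ext rfl (by
        simpa using (Complex.pos_iff.mp (R.posDef.diag_pos (i := 0))).2) :
        ((R.mat 0 0).re : ℂ) = R.mat 0 0).symm
    · rfl
    · simpa using mat_one_zero R
    · simpa using mat_one_one R
  have hdet : (a : ℂ) * d - b * conj b = 1 := by
    have := R.det_eq
    rwa [hM, Matrix.det_fin_two_of] at this
  have ha : 0 < a := by
    have := (Complex.pos_iff.mp (R.posDef.diag_pos (i := 0))).1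
    simpa [hM] using this
  have hd : 0 < d := by
    have := mat_one_one_pos R
    simpa [hM] using this
  obtain ⟨u, hu, hub⟩ : ∃ u : ℂ, u ≠ 0 ∧ u * u * conj b = -(conj u * u) * b := by
    by_cases hb : b = 0
    · exact ⟨1, one_ne_zero, by simp [hb]⟩
    · refine ⟨-Complex.I * b, mul_ne_zero (neg_ne_zero.mpr Complex.I_ne_zero) hb, ?_⟩
      simp only [map_mul, map_neg, Complex.conj_I, neg_neg]
      ring
  have hS : 0 < a + d + 2 := by linarith
  have hSc : (a : ℂ) + d + 2 ≠ 0 := by exact_mod_cast hS.ne'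
  have huc : conj u ≠ 0 := by simpa using hu
  have hdet' : b * conj u * (conj b * u) - ((a : ℂ) + 1) * u * (((d : ℂ) + 1) * conj u)
      = -(conj u * u) * ((a : ℂ) + d + 2) := by linear_combination -(conj u * u) * hdet
  have hdne : b * conj u * (conj b * u) - ((a : ℂ) + 1) * u * (((d : ℂ) + 1) * conj u) ≠ 0 := by
    rw [hdet']
    exact mul_ne_zero (neg_ne_zero.mpr (mul_ne_zero huc hu)) hSc
  set g := gl (b * conj u) (((a : ℂ) + 1) * u) (((d : ℂ) + 1) * conj u) (conj b * u) hdne
  have hnorm : ((‖(g : Matrix (Fin 2) (Fin 2) ℂ).det‖⁻¹ : ℝ) : ℂ) =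
      (conj u * u * ((a : ℂ) + d + 2))⁻¹ := by
    rw [gl_val, Matrix.det_fin_two_of, hdet', Complex.ofReal_inv]
    congr 1
    rw [norm_mul, norm_neg, norm_mul, RCLike.norm_conj, Complex.ofReal_mul, Complex.ofReal_mul,
      show ((a : ℂ) + d + 2) = ((a + d + 2 : ℝ) : ℂ) by push_cast; ring, Complex.norm_real,
      Real.norm_of_nonneg hS.le, ← sq, Complex.conj_mul']
  refine ⟨g, ?_, ?_⟩
  · refine H3.ext ?_
    rw [smul_mat, hnorm, hM]
    ext i j
    simp only [Matrix.smul_apply, Matrix.mul_apply, Fin.sum_univ_two, Matrix.conjTranspose_apply]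
    fin_cases i <;> fin_cases j <;> simp [g, origin] <;> field_simp
    · linear_combination -hdet
    · ring
    · ring
    · linear_combination -hdet
  · refine H3.ext ?_
    rw [smul_mat, hnorm, hM]
    ext i j
    simp only [Matrix.smul_apply, Matrix.mul_apply, Fin.sum_univ_two, Matrix.conjTranspose_apply]
    fin_cases i <;> fin_cases j <;> simp [g, origin] <;> field_simp
    · grind
    · grind
    · grind
    · grind

theorem continuous_mat : Continuous (mat : H3 → Matrix (Fin 2) (Fin 2) ℂ) := continuous_induced_dom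

/-- The height is continuous. -/
theorem continuous_tc : Continuous tc :=
  Continuous.inv₀ (Complex.continuous_re.comp (continuous_mat.matrix_elem 1 1))
    fun P => (mat_one_one_pos P).ne'

/-- The horizontal coordinate is continuous. -/
theorem continuous_zc : Continuous zc :=
  (continuous_mat.matrix_elem 0 1).mul (Complex.continuous_ofReal.comp continuous_tc)

/-- Coordinates as a homeomorphism with the upper half space. -/
def coordHomeo : H3 ≃ₜ {p : ℂ × ℝ // 0 < p.2} where
  toFun P := ⟨(zc P, tc P), tc_pos P⟩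
  invFun p := pt p.1.1 p.1.2
  left_inv := pt_coord
  right_inv p := Subtype.ext (Prod.ext (zc_pt _ p.2) (tc_pt _ p.2))
  continuous_toFun := (continuous_zc.prodMk continuous_tc).subtype_mk _
  continuous_invFun := by
    refine continuous_induced_rng.mpr ?_
    have hne : ∀ p : {p : ℂ × ℝ // 0 < p.2}, ((p.1.2 : ℝ) : ℂ) ≠ 0 := fun p =>
      Complex.ofReal_ne_zero.mpr p.2.ne'
    have heq : (mat ∘ fun p : {p : ℂ × ℝ // 0 < p.2} => pt p.1.1 p.1.2) = fun p =>
        !![((Complex.normSq p.1.1 + p.1.2 ^ 2) / p.1.2 : ℂ), p.1.1 / p.1.2;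
          conj p.1.1 / p.1.2, (p.1.2 : ℂ)⁻¹] := funext fun p => mat_pt _ p.2
    rw [heq]
    refine continuous_matrix fun i j => ?_
    fin_cases i <;> fin_cases j
    · exact Continuous.div (by fun_prop) (by fun_prop) hne
    · exact Continuous.div (by fun_prop) (by fun_prop) hne
    · exact Continuous.div (by fun_prop) (by fun_prop) hne
    · exact Continuous.inv₀ (by fun_prop) hne

/-- `GL(2, ℂ)` acts by continuous maps. -/
theorem continuous_smul_point (g : GL (Fin 2) ℂ) : Continuous fun P : H3 => g • P := by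
  refine continuous_induced_rng.mpr ?_
  have : (mat ∘ fun P : H3 => g • P) = fun P : H3 =>
      ((‖(g : Matrix (Fin 2) (Fin 2) ℂ).det‖⁻¹ : ℝ) : ℂ) •
      ((g : Matrix (Fin 2) (Fin 2) ℂ) * P.mat * (g : Matrix (Fin 2) (Fin 2) ℂ)ᴴ) := rfl
  rw [this]
  exact ((continuous_const.matrix_mul continuous_mat).matrix_mul continuous_const).const_smul
    (_ : ℂ)

/-- The distance is jointly continuous. -/
theorem continuous_cdist : Continuous fun p : H3 × H3 => cdist p.1 p.2 := by
  have heq : (fun p : H3 × H3 => cdist p.1 p.2) = fun p =>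
      (Complex.normSq (zc p.1 - zc p.2) + tc p.1 ^ 2 + tc p.2 ^ 2) / (2 * tc p.1 * tc p.2) :=
    funext fun p => cdist_eq p.1 p.2
  rw [heq]
  have h1 := continuous_tc.comp (continuous_fst (X := H3) (Y := H3))
  have h2 := continuous_tc.comp (continuous_snd (X := H3) (Y := H3))
  refine Continuous.div ?_ ((continuous_const.mul h1).mul h2) fun p => ?_
  · exact ((Complex.continuous_normSq.comp ((continuous_zc.comp continuous_fst).sub
      (continuous_zc.comp continuous_snd))).add (h1.pow 2)).add (h2.pow 2)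
  · have := tc_pos p.1; have := tc_pos p.2; positivity

end Fermat.Agent.LT.H3
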