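import Fermat.Agent.LT.H3.Measure
import Mathlib.MeasureTheory.Measure.Lebesgue.VolumeOfBalls
import Mathlib.LinearAlgebra.Basis.Basic
import Mathlib.Analysis.Calculus.FDeriv.Mul
import Mathlib.Analysis.Calculus.Deriv.Inv
import Mathlib.Analysis.Calculus.FDeriv.Pow

/-!
# The image of the invariant measure in the axis coordinates

With `axisCoord Q = ((m₀₀ + m₁₁)/2, (m₀₀ - m₁₁)/2)`, the first coordinate is `cdist origin Q`, and
the image of `vol` is `2π` times Lebesgue measure on `{(a, b) | 1 ≤ a, b² ≤ a² - 1}`.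
-/

set_option autoImplicit false

noncomputable section

open MeasureTheory Matrix Set
open scoped ENNReal ComplexConjugate

namespace Fermat.Agent.LT.H3

/-- The two symmetrised diagonal coordinates of a point. -/
def axisCoord (Q : H3) : ℝ × ℝ :=
  (((Q.mat 0 0 + Q.mat 1 1).re) / 2, ((Q.mat 0 0 - Q.mat 1 1).re) / 2)

/-- The axis coordinates are continuous. -/
theorem continuous_axisCoord : Continuous axisCoord := by
  refine Continuous.prodMk ?_ ?_
  · exact (Complex.continuous_re.comp
      ((continuous_mat.matrix_elem 0 0).add (continuous_mat.matrix_elem 1 1))).div_const 2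
  · exact (Complex.continuous_re.comp
      ((continuous_mat.matrix_elem 0 0).sub (continuous_mat.matrix_elem 1 1))).div_const 2

/-- The first axis coordinate is the distance from the origin. -/
theorem axisCoord_fst (Q : H3) : (axisCoord Q).1 = cdist origin Q := by
  simp [axisCoord, cdist, origin, Matrix.trace_fin_two]

/-- Axis coordinates as functions of `(|z|², t)`. -/
def axisT (p : ℝ × ℝ) : ℝ × ℝ :=
  ((p.1 + p.2 ^ 2 + 1) / (2 * p.2), (p.1 + p.2 ^ 2 - 1) / (2 * p.2))

theorem axisCoord_pt (z : ℂ) {t : ℝ} (ht : 0 < t) :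
    axisCoord (pt z t) = axisT (Complex.normSq z, t) := by
  have htc : (t : ℂ) ≠ 0 := Complex.ofReal_ne_zero.mpr ht.ne'
  rw [axisCoord, mat_pt z ht, axisT]
  simp only [of_apply, cons_val', cons_val_zero, cons_val_one, cons_val_fin_one, Complex.add_re,
    Complex.sub_re, Complex.div_ofReal_re, ← Complex.ofReal_inv, Complex.ofReal_re,
    ← Complex.ofReal_pow]
  refine Prod.ext ?_ ?_ <;> simp only <;> field_simp

/-- The height in terms of the axis coordinates. -/
theorem tc_eq_axisCoord (Q : H3) : tc Q = ((axisCoord Q).1 - (axisCoord Q).2)⁻¹ := by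
  simp only [tc, axisCoord, Complex.add_re, Complex.sub_re]
  ring_nf

/-- The area of discs: the image of Lebesgue measure on `ℂ` under `normSq`. -/
theorem map_normSq_volume :
    (volume : Measure ℂ).map Complex.normSq
      = ENNReal.ofReal Real.pi • volume.restrict (Ici (0 : ℝ)) := by
  have hm : Measurable Complex.normSq := Complex.continuous_normSq.measurable
  have hIic : ∀ s : ℝ, (volume : Measure ℂ).map Complex.normSq (Iic s)
      = ENNReal.ofReal Real.pi * ENNReal.ofReal s := by
    intro s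
    rw [Measure.map_apply hm measurableSet_Iic]
    rcases le_or_gt 0 s with hs | hs
    · have : Complex.normSq ⁻¹' Iic s = Metric.closedBall (0 : ℂ) (Real.sqrt s) := by
        ext z
        simp [Real.le_sqrt (norm_nonneg z) hs, Complex.normSq_eq_norm_sq]
      rw [this, Complex.volume_closedBall, ← ENNReal.ofReal_pow (Real.sqrt_nonneg s),
        Real.sq_sqrt hs, mul_comm]
      simp only [ENNReal.ofReal, Real.toNNReal_of_nonneg Real.pi_pos.le]
      rfl
    · have : Complex.normSq ⁻¹' Iic s = ∅ := by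
        refine eq_empty_of_forall_notMem fun z hz => ?_
        have hz' : Complex.normSq z ≤ s := hz
        linarith [Complex.normSq_nonneg z]
      simp [this, ENNReal.ofReal_of_nonpos hs.le]
  refine Measure.ext_of_Ioc' _ _ (fun {a b} hab => ?_) (fun {a b} hab => ?_)
  · refine ne_top_of_le_ne_top ?_ (measure_mono (Ioc_subset_Iic_self))
    rw [hIic]
    exact ENNReal.mul_ne_top ENNReal.ofReal_ne_top ENNReal.ofReal_ne_top
  · rw [← Iic_sdiff_Iic, measure_sdiff (Iic_subset_Iic.mpr hab.le) nullMeasurableSet_Iic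
      (by rw [hIic]; exact ENNReal.mul_ne_top ENNReal.ofReal_ne_top ENNReal.ofReal_ne_top),
      hIic, hIic, Iic_sdiff_Iic, Measure.smul_apply, Measure.restrict_apply measurableSet_Ioc,
      smul_eq_mul, ← ENNReal.mul_sub (fun _ _ => ENNReal.ofReal_ne_top)]
    congr 1
    rcases le_or_gt 0 a with ha | ha
    · have hsub : Ioc a b ⊆ Ici (0 : ℝ) := fun x hx => ha.trans hx.1.le
      rw [inter_eq_left.mpr hsub, Real.volume_Ioc,
        ENNReal.ofReal_sub _ ha]
    · rw [ENNReal.ofReal_of_nonpos ha.le, tsub_zero]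
      rcases le_or_gt 0 b with hb | hb
      · have : Ioc a b ∩ Ici 0 = Icc 0 b := by
          ext x
          simp only [mem_inter_iff, mem_Ioc, mem_Ici, mem_Icc]
          constructor
          · rintro ⟨⟨-, h2⟩, h3⟩; exact ⟨h3, h2⟩
          · rintro ⟨h1, h2⟩; exact ⟨⟨by linarith, h2⟩, h1⟩
        rw [this, Real.volume_Icc, sub_zero]
      · have : Ioc a b ∩ Ici 0 = ∅ := by
          refine eq_empty_of_forall_notMem fun x hx => ?_
          have h1 : x ≤ b := hx.1.2
          have h2 : (0 : ℝ) ≤ x := hx.2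
          linarith
        simp [this, ENNReal.ofReal_of_nonpos hb.le]

/-- The region of the axis coordinates. -/
def axisRegion : Set (ℝ × ℝ) := {p | 1 ≤ p.1 ∧ p.2 ^ 2 ≤ p.1 ^ 2 - 1}

theorem axisT_image : axisT '' {p : ℝ × ℝ | 0 ≤ p.1 ∧ 0 < p.2} = axisRegion := by
  ext q
  constructor
  · rintro ⟨⟨u, t⟩, ⟨hu, ht⟩, rfl⟩
    simp only [axisT, axisRegion, mem_ofPred_eq] at hu ht ⊢
    constructor
    · rw [le_div_iff₀ (by positivity)]; nlinarith [sq_nonneg (t - 1)]
    · rw [div_pow, div_pow, le_sub_iff_add_le, le_div_iff₀ (by positivity), add_mul,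
        div_mul_cancel₀ _ (by positivity)]
      nlinarith
  · rintro ⟨h1, h2⟩
    obtain ⟨a, b⟩ := q
    simp only at h1 h2
    have hd : 0 < a - b := by nlinarith [sq_nonneg (a - b)]
    refine ⟨((a ^ 2 - b ^ 2 - 1) / (a - b) ^ 2, (a - b)⁻¹), ⟨?_, inv_pos.mpr hd⟩, ?_⟩
    · exact div_nonneg (by linarith) (sq_nonneg _)
    · simp only [axisT]
      refine Prod.ext ?_ ?_ <;> simp only <;> field_simp <;> ring

theorem injOn_axisT : InjOn axisT {p : ℝ × ℝ | 0 ≤ p.1 ∧ 0 < p.2} := by
  rintro ⟨u, t⟩ ⟨-, ht⟩ ⟨v, s⟩ ⟨-, hs⟩ h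
  simp only [axisT, Prod.mk.injEq] at h ht hs
  obtain ⟨h1, h2⟩ := h
  have h3 : t⁻¹ = s⁻¹ := by
    have e : ∀ x w : ℝ, 0 < w →
        (x + w ^ 2 + 1) / (2 * w) - (x + w ^ 2 - 1) / (2 * w) = w⁻¹ := fun x w hw => by
      field_simp; ring
    rw [← e u t ht, ← e v s hs, h1, h2]
  have hts : t = s := inv_injective h3
  subst hts
  have : u = v := by
    field_simp at h1
    linarith
  rw [this]

theorem exists_hasFDerivAt_axisT {p : ℝ × ℝ} (ht : 0 < p.2) :
    ∃ A : (ℝ × ℝ) →L[ℝ] (ℝ × ℝ), HasFDerivAt axisT A p ∧ |A.det| = (2 * p.2 ^ 3)⁻¹ := by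
  set fs := ContinuousLinearMap.fst ℝ ℝ ℝ
  set sn := ContinuousLinearMap.snd ℝ ℝ ℝ
  have hbase : ∀ c : ℝ, HasFDerivAt (fun q : ℝ × ℝ => (q.1 + q.2 ^ 2 + c) / (2 * q.2))
      ((2 * p.2)⁻¹ • fs + ((p.2 ^ 2 - p.1 - c) / (2 * p.2 ^ 2)) • sn) p := by
    intro c
    have h1 : HasFDerivAt (fun q : ℝ × ℝ => q.1 + q.2 ^ 2 + c) (fs + (2 * p.2) • sn) p := by
      have := ((hasFDerivAt_fst (𝕜 := ℝ) (p := p)).add
        ((hasFDerivAt_snd (𝕜 := ℝ) (p := p)).pow 2)).add_const c
      simpa [fs, sn, smul_smul, mul_comm] using this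
    have h2 : HasFDerivAt (fun q : ℝ × ℝ => (2 * q.2)⁻¹)
        ((-((2 * p.2) ^ 2)⁻¹) • ((2 : ℝ) • sn)) p :=
      (hasDerivAt_inv (by positivity : (2 * p.2) ≠ 0)).comp_hasFDerivAt p
        ((hasFDerivAt_snd (𝕜 := ℝ) (p := p)).const_mul 2)
    refine ((h1.mul h2).congr_fderiv ?_).congr_of_eventuallyEq (Filter.Eventually.of_forall
      fun q => div_eq_mul_inv _ _)
    refine ContinuousLinearMap.ext fun v => ?_
    simp [fs, sn]
    field_simp
    ring
  refine ⟨((2 * p.2)⁻¹ • fs + ((p.2 ^ 2 - p.1 - 1) / (2 * p.2 ^ 2)) • sn).prod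
    ((2 * p.2)⁻¹ • fs + ((p.2 ^ 2 - p.1 + 1) / (2 * p.2 ^ 2)) • sn), ?_, ?_⟩
  · have hA := (hbase 1).prodMk (hbase (-1))
    refine (hA.congr_fderiv ?_).congr_of_eventuallyEq
      (Filter.Eventually.of_forall fun q => by simp [axisT, sub_eq_add_neg])
    simp [sub_eq_add_neg, fs, sn]
  · show |LinearMap.det _| = _
    rw [← LinearMap.det_toMatrix (Module.Basis.finTwoProd ℝ), Matrix.det_fin_two,
      LinearMap.toMatrix_apply, LinearMap.toMatrix_apply, LinearMap.toMatrix_apply,
      LinearMap.toMatrix_apply]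
    simp [fs, sn]
    have : (2 * p.2)⁻¹ * ((p.2 ^ 2 - p.1 + 1) / (2 * p.2 ^ 2))
        - (p.2 ^ 2 - p.1 - 1) / (2 * p.2 ^ 2) * (2 * p.2)⁻¹ = (2 * p.2 ^ 3)⁻¹ := by
      field_simp; ring
    convert abs_of_pos (show (0 : ℝ) < (2 * p.2 ^ 3)⁻¹ by positivity) using 2 <;>
      first | (field_simp; done) | (field_simp; ring)

/-- The image of the invariant measure is `2π` times Lebesgue measure on the region. -/
theorem lintegral_axisCoord {f : ℝ × ℝ → ℝ≥0∞} (hf : Measurable f) :
    ∫⁻ Q, f (axisCoord Q) ∂vol = ENNReal.ofReal (2 * Real.pi) * ∫⁻ q in axisRegion, f q := by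
  classical
  set D : Set (ℝ × ℝ) := {p | 0 ≤ p.1 ∧ 0 < p.2}
  have hD : MeasurableSet D := (measurableSet_Ici.preimage measurable_fst).inter
    (measurableSet_Ioi.preimage measurable_snd)
  set F : ℝ × ℝ → ℝ≥0∞ := fun p => ENNReal.ofReal ((p.2 ^ 3)⁻¹) * f (axisT p)
  have haT : Measurable axisT :=
    (((measurable_fst.add (measurable_snd.pow_const 2)).add_const 1).div
      (measurable_snd.const_mul 2)).prodMk
    (((measurable_fst.add (measurable_snd.pow_const 2)).sub_const 1).div
      (measurable_snd.const_mul 2))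
  have hF : Measurable F := (measurable_snd.pow_const 3).inv.ennreal_ofReal.mul (hf.comp haT)
  have hN : Measurable fun p : ℂ × ℝ => (Complex.normSq p.1, p.2) :=
    (Complex.continuous_normSq.measurable.comp measurable_fst).prodMk measurable_snd
  have hmap : ((volume : Measure (ℂ × ℝ)).restrict upper).map
      (fun p => (Complex.normSq p.1, p.2))
        = ENNReal.ofReal Real.pi • volume.restrict D := by
    have hu : upper = (univ : Set ℂ) ×ˢ Ioi (0 : ℝ) := by ext p; simp [upper]
    have hDp : D = Ici (0 : ℝ) ×ˢ Ioi (0 : ℝ) := by ext p; simp [D]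
    rw [hu, hDp, Measure.volume_eq_prod, Measure.volume_eq_prod, ← Measure.prod_restrict,
      ← Measure.prod_restrict, Measure.restrict_univ, ← Measure.prod_smul_left,
      ← map_normSq_volume]
    exact (Measure.map_prod_map (volume : Measure ℂ) (volume.restrict (Ioi (0 : ℝ)))
      Complex.continuous_normSq.measurable measurable_id).symm.trans (by rw [Measure.map_id])
  calc ∫⁻ Q, f (axisCoord Q) ∂vol
      = ∫⁻ p in upper, F (Complex.normSq p.1, p.2) := by
        rw [lintegral_vol (f := fun Q => f (axisCoord Q)) (hf.comp continuous_axisCoord.measurable)]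
        refine setLIntegral_congr_fun measurableSet_upper fun p hp => ?_
        simp only [F, density, axisCoord_pt p.1 hp]
    _ = ENNReal.ofReal Real.pi * ∫⁻ p in D, F p := by
        rw [← lintegral_map hF hN, hmap, lintegral_smul_measure, smul_eq_mul]
    _ = ENNReal.ofReal (2 * Real.pi) * ∫⁻ q in axisT '' D, f q := by
        let T' : ℝ × ℝ → (ℝ × ℝ) →L[ℝ] (ℝ × ℝ) := fun p =>
          if h : 0 < p.2 then (exists_hasFDerivAt_axisT h).choose else 0
        have h1 : ∀ p ∈ D, HasFDerivWithinAt axisT (T' p) D p := fun p hp => by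
          simp only [T', dif_pos hp.2]
          exact (exists_hasFDerivAt_axisT hp.2).choose_spec.1.hasFDerivWithinAt
        rw [lintegral_image_eq_lintegral_abs_det_fderiv_mul _ hD h1 injOn_axisT,
          mul_comm 2 Real.pi, ENNReal.ofReal_mul Real.pi_pos.le, mul_assoc]
        congr 1
        rw [← lintegral_const_mul' _ _ ENNReal.ofReal_ne_top]
        refine setLIntegral_congr_fun hD fun p hp => ?_
        have ht : 0 < p.2 := hp.2
        simp only [T', F, dif_pos ht]
        rw [(exists_hasFDerivAt_axisT ht).choose_spec.2, ← mul_assoc,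
          ← ENNReal.ofReal_mul (by norm_num)]
        congr 2
        field_simp
    _ = _ := by rw [axisT_image]

/-- The image of `vol` in the axis coordinates is `2π` times Lebesgue measure. -/
theorem map_axisCoord :
    vol.map axisCoord = ENNReal.ofReal (2 * Real.pi) •
      (volume : Measure (ℝ × ℝ)).restrict {p | 1 ≤ p.1 ∧ p.2 ^ 2 ≤ p.1 ^ 2 - 1} := by
  refine Measure.ext_of_lintegral _ fun f hf => ?_
  rw [lintegral_map hf continuous_axisCoord.measurable, lintegral_axisCoord hf,
    lintegral_smul_measure, smul_eq_mul]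
  rfl

end Fermat.Agent.LT.H3
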