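import Mathlib.MeasureTheory.Integral.ExpDecay
import Mathlib.Analysis.SpecialFunctions.ImproperIntegrals
import Mathlib.MeasureTheory.Integral.DominatedConvergence
import Mathlib.Analysis.SpecialFunctions.Integrals.Basic

/-!
# The Bessel function `K₀` through an integral

`K0 x = ½ ∫₀^∞ exp (-x²/(4τ) - τ) dτ/τ`, with positivity, exponential bounds on both sides and
continuity away from zero.
-/

set_option autoImplicit false

noncomputable section

open MeasureTheory Real Set Filter Topology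

namespace Fermat.Agent.LT.H3

/-- The Bessel function `K₀`. -/
def K0 (x : ℝ) : ℝ := (1 / 2) * ∫ τ in Ioi (0 : ℝ), exp (-(x ^ 2 / (4 * τ)) - τ) / τ

/-- `exp (-c / τ) / τ ≤ 1 / c`. -/
theorem exp_neg_div_div_le {c τ : ℝ} (hc : 0 < c) (hτ : 0 < τ) : exp (-(c / τ)) / τ ≤ 1 / c := by
  rw [div_le_div_iff₀ hτ hc, one_mul]
  have h := add_one_le_exp (c / τ)
  have he : exp (-(c / τ)) * exp (c / τ) = 1 := by rw [← exp_add]; simp
  have hcτ : c / τ * τ = c := div_mul_cancel₀ c hτ.ne'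
  have h2 := mul_le_mul_of_nonneg_left h (mul_pos hτ (exp_pos (-(c / τ)))).le
  rw [mul_assoc τ (exp (-(c / τ))) (exp (c / τ)), he, mul_one] at h2
  have h3 : τ * exp (-(c / τ)) * (c / τ + 1) = exp (-(c / τ)) * c + τ * exp (-(c / τ)) := by
    field_simp
  nlinarith [exp_pos (-(c / τ))]

theorem K0_integrand_le {x₀ x τ : ℝ} (h0 : 0 < x₀) (hx : x₀ ≤ |x|) (hτ : 0 < τ) :
    exp (-(x ^ 2 / (4 * τ)) - τ) / τ ≤ 4 / x₀ ^ 2 * exp (-τ) := by
  have hsq : x₀ ^ 2 ≤ x ^ 2 := by nlinarith [sq_abs x]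
  have h := exp_neg_div_div_le (c := x₀ ^ 2 / 4) (by positivity) hτ
  rw [sub_eq_add_neg, exp_add, mul_div_right_comm]
  refine mul_le_mul_of_nonneg_right ?_ (exp_pos _).le
  calc exp (-(x ^ 2 / (4 * τ))) / τ ≤ exp (-(x₀ ^ 2 / 4 / τ)) / τ := by
        rw [div_div]; gcongr
    _ ≤ 1 / (x₀ ^ 2 / 4) := h
    _ = 4 / x₀ ^ 2 := by field_simp

theorem measurable_K0_integrand (x : ℝ) :
    Measurable fun τ : ℝ => exp (-(x ^ 2 / (4 * τ)) - τ) / τ := by
  fun_prop

theorem continuousOn_K0 : ContinuousOn K0 (Ioi (0 : ℝ)) := by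
  intro x (hx : 0 < x)
  refine ContinuousAt.continuousWithinAt (continuousAt_const.mul ?_)
  refine continuousAt_of_dominated (bound := fun τ => 4 / (x / 2) ^ 2 * exp (-τ))
    (Eventually.of_forall fun y => (measurable_K0_integrand y).aestronglyMeasurable) ?_ ?_ ?_
  · filter_upwards [Ioi_mem_nhds (show x / 2 < x by linarith)] with y (hy : x / 2 < y)
    refine (ae_restrict_mem measurableSet_Ioi).mono fun τ (hτ : 0 < τ) => ?_
    rw [norm_of_nonneg (by positivity)]
    exact K0_integrand_le (by linarith) (hy.le.trans (le_abs_self y)) hτ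
  · have := (exp_neg_integrableOn_Ioi 0 (b := 1) one_pos).const_mul (4 / (x / 2) ^ 2)
    simp only [neg_mul, one_mul] at this
    exact this
  · exact Eventually.of_forall fun τ => by fun_prop

end Fermat.Agent.LT.H3
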