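import Fermat.Agent.LT.H3.Whittaker
import Mathlib.MeasureTheory.Constructions.Pi

/-!
# Radial kernels on finite products of hyperbolic spaces

A continuous function on `ι → H3` is an eigenfunction of all product kernels with the spherical
parameter zero if and only if all its one-variable slices are.
-/

set_option autoImplicit false

noncomputable section

open MeasureTheory Set Filter Topology Function
open scoped ComplexConjugate

namespace Fermat.Agent.LT.H3

variable {ι : Type*} [Fintype ι]

/-- The operator of a product of profiles. -/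
def piKop (k : ι → ℝ → ℝ) (φ : (ι → H3) → ℂ) (P : ι → H3) : ℂ :=
  ∫ Q, (∏ w, k w (cdist (P w) (Q w))) • φ Q ∂Measure.pi fun _ => vol

/-- Eigenfunctions of all product kernels, at the parameter zero in every factor. -/
def IsPiEigen (φ : (ι → H3) → ℂ) : Prop :=
  ∀ k : ι → ℝ → ℝ, (∀ w, Continuous (k w)) → (∀ w, HasCompactSupport (k w)) →
    ∀ P, piKop k φ P = (∏ w, sph (k w)) • φ P

/-- A product of continuous profiles gives a continuous kernel. -/
theorem continuous_prod_profile {k : ι → ℝ → ℝ} (hk : ∀ w, Continuous (k w)) :
    Continuous fun p : (ι → H3) × (ι → H3) => ∏ w, k w (cdist (p.1 w) (p.2 w)) := by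
  refine continuous_finsetProd _ fun w _ => (hk w).comp ?_
  have h : Continuous fun p : (ι → H3) × (ι → H3) => ((p.1 w, p.2 w) : H3 × H3) :=
    ((continuous_apply w).comp continuous_fst).prodMk ((continuous_apply w).comp continuous_snd)
  have h' := Continuous.comp continuous_cdist h
  simpa only [comp_def] using h'

/-- For `P` in a compact set, a product kernel is supported in one compact set. -/
theorem exists_compact_prod_profile {k : ι → ℝ → ℝ} (hs : ∀ w, HasCompactSupport (k w))
    {N : Set (ι → H3)} (hN : IsCompact N) :
    ∃ C : Set (ι → H3), IsCompact C ∧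
      ∀ P ∈ N, ∀ Q ∉ C, (∏ w, k w (cdist (P w) (Q w))) = 0 := by
  choose R hR using fun w => exists_bound_profile (hs w)
  choose C hC hCN using fun w => exists_compact_cdist_le (hN.image (continuous_apply w)) (R w)
  refine ⟨univ.pi C, isCompact_univ_pi hC, fun P hP Q hQ => ?_⟩
  simp only [mem_univ_pi, not_forall] at hQ
  obtain ⟨w, hw⟩ := hQ
  refine Finset.prod_eq_zero (Finset.mem_univ w) (hR w _ (not_le.mp fun h => hw ?_))
  exact hCN w _ (mem_image_of_mem _ hP) _ h

/-- A product kernel times a continuous function is integrable. -/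
theorem integrable_prod_profile_smul {k : ι → ℝ → ℝ} (hk : ∀ w, Continuous (k w))
    (hs : ∀ w, HasCompactSupport (k w)) (P : ι → H3) {φ : (ι → H3) → ℂ} (hφ : Continuous φ) :
    Integrable (fun Q => (∏ w, k w (cdist (P w) (Q w))) • φ Q) (Measure.pi fun _ => vol) := by
  have hc : Continuous fun Q : ι → H3 => ∏ w, k w (cdist (P w) (Q w)) := by
    have h1 : Continuous fun Q : ι → H3 => ((P, Q) : (ι → H3) × (ι → H3)) :=
      continuous_const.prodMk continuous_id
    have h2 := Continuous.comp (continuous_prod_profile hk) h1
    simpa only [comp_def] using h2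
  obtain ⟨C, hC, h⟩ := exists_compact_prod_profile hs (isCompact_singleton (x := P))
  refine (hc.smul hφ).integrable_of_hasCompactSupport
    (HasCompactSupport.intro hC fun Q hQ => ?_)
  simp [h P rfl Q hQ]

/-! ### Product eigen gives slices -/

/-- Slices of product eigenfunctions are spherical eigenfunctions. -/
theorem IsPiEigen.slice [DecidableEq ι] {φ : (ι → H3) → ℂ} (hφ : IsPiEigen φ)
    (hc : Continuous φ) (P : ι → H3) (v : ι) : IsSphEigen fun R => φ (update P v R) := by
  refine ⟨hc.comp (continuous_const.update v continuous_id), fun k hk hs S => ?_⟩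
  -- a fixed positive profile
  set j : ℝ → ℝ := fun u => max 0 (min 1 u) * max 0 (min 1 (3 - u)) with hj
  have hjc : Continuous j := by fun_prop
  have hjs : HasCompactSupport j :=
    HasCompactSupport.intro (isCompact_Icc (a := 0) (b := 3)) fun u hu => by
      rcases lt_or_ge u 0 with h | h
      · exact mul_eq_zero_of_left (max_eq_left (min_le_of_right_le h.le)) _
      · refine mul_eq_zero_of_right _ (max_eq_left (min_le_of_right_le ?_))
        have : (3 : ℝ) < u := not_le.mp fun h' => hu ⟨h, h'⟩
        linarith
  have hjpos : 0 < sph j := sph_pos hjc hjs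
    (fun u => mul_nonneg (le_max_left _ _) (le_max_left _ _)) (by norm_num [hj])
  set J : ι → ℝ → ℝ := fun _ => j
  have hprod : (0 : ℝ) < ∏ w, sph (J w) := Finset.prod_pos fun w _ => hjpos
  have hval : ∀ Q, φ Q = (∏ w, sph (J w))⁻¹ • piKop J φ Q := fun Q => by
    rw [hφ J (fun _ => hjc) (fun _ => hjs), smul_smul, inv_mul_cancel₀ hprod.ne', one_smul]
  show ∫ R, k (cdist S R) • φ (update P v R) ∂vol = sph k • φ (update P v S)
  conv_lhs => arg 2; ext R; rw [hval, piKop, smul_comm, ← integral_smul]
  rw [integral_smul]
  set J' : ι → ℝ → ℝ := update J v (conv k j)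
  have hJ'c : ∀ w, Continuous (J' w) := fun w => by
    by_cases hw : w = v
    · subst hw; simpa [J'] using continuous_conv hk hjc hjs
    · simpa [J', update_of_ne hw] using hjc
  have hJ's : ∀ w, HasCompactSupport (J' w) := fun w => by
    by_cases hw : w = v
    · subst hw; simpa [J'] using hasCompactSupport_conv hs hjs
    · simpa [J', update_of_ne hw] using hjs
  set G : H3 → (ι → H3) → ℂ := fun R Q =>
    k (cdist S R) • ((∏ w, j (cdist (update P v R w) (Q w))) • φ Q)
  have hswap : ∫ R, ∫ Q, G R Q ∂(Measure.pi fun _ => vol) ∂vol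
      = piKop J' φ (update P v S) := by
    obtain ⟨Rk, hRk⟩ := exists_bound_profile hs
    set N : Set (ι → H3) := (fun R => update P v R) '' {R | cdist S R ≤ Rk}
    have hN : IsCompact N :=
      (isCompact_cdist_le S Rk).image (continuous_const.update v continuous_id)
    obtain ⟨C, hC, hCN⟩ := exists_compact_prod_profile (k := J) (fun _ => hjs) hN
    have hGc : Continuous (uncurry G) := by
      have h0 : Continuous fun p : H3 × (ι → H3) => ((update P v p.1, p.2) :
          (ι → H3) × (ι → H3)) :=
        (Continuous.update (f := fun _ : H3 × (ι → H3) => P) continuous_const v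
          continuous_fst).prodMk continuous_snd
      have h1 := Continuous.comp (continuous_prod_profile (k := J) fun _ => hjc) h0
      exact ((continuous_profile hk S).comp continuous_fst).smul
        (h1.smul (hc.comp continuous_snd))
    rw [integral_integral_swap_of_hasCompactSupport hGc
      (HasCompactSupport.intro ((isCompact_cdist_le S Rk).prod hC) fun p hp => ?_)]
    · refine integral_congr_ae (Eventually.of_forall fun Q => ?_)
      simp only [G, smul_smul]
      rw [integral_smul_const]
      congr 1
      have hsplit : ∀ R, k (cdist S R) * ∏ w, j (cdist (update P v R w) (Q w))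
          = (∏ w ∈ Finset.univ.erase v, j (cdist (P w) (Q w)))
            * (k (cdist S R) * j (cdist R (Q v))) := by
        intro R
        rw [← Finset.mul_prod_erase _ _ (Finset.mem_univ v), update_self,
          Finset.prod_congr rfl (g := fun w => j (cdist (P w) (Q w))) fun w hw => by
            rw [update_of_ne (Finset.ne_of_mem_erase hw)]]
        ring
      simp only [hsplit]
      rw [integral_const_mul, integral_mul_eq_conv, ← Finset.mul_prod_erase _ _ (Finset.mem_univ v),
        update_self, mul_comm]
      congr 1
      · simp [J']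
      · exact Finset.prod_congr rfl fun w hw => by
          simp [J', J, update_of_ne (Finset.ne_of_mem_erase hw)]
    · simp only [uncurry, G]
      by_cases hR : cdist S p.1 ≤ Rk
      · have hQ : p.2 ∉ C := fun h => hp ⟨hR, h⟩
        have h0 : ∏ w, J w (cdist (update P v p.1 w) (p.2 w)) = 0 :=
          hCN _ (mem_image_of_mem _ hR) _ hQ
        simp only [J] at h0
        simp [h0]
      · simp [hRk _ (not_le.mp hR)]
  rw [show (fun R => ∫ Q, k (cdist S R) • ((∏ w, J w (cdist (update P v R w) (Q w))) • φ Q)
      ∂Measure.pi fun _ => vol) = fun R => ∫ Q, G R Q ∂Measure.pi fun _ => vol from rfl, hswap,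
    hφ J' hJ'c hJ's, smul_smul]
  congr 1
  have e : ∀ w ∈ Finset.univ.erase v, sph (J' w) = sph j := fun w hw => by
    simp [J', J, update_of_ne (Finset.ne_of_mem_erase hw)]
  rw [← Finset.mul_prod_erase _ _ (Finset.mem_univ v), ← Finset.mul_prod_erase _ (fun w => sph (J' w))
    (Finset.mem_univ v), Finset.prod_congr rfl e]
  simp only [J', update_self, J]
  rw [sph_conv hk hs hjc hjs, Finset.prod_const]
  have hne : sph j ^ (Finset.univ.erase v).card ≠ 0 := pow_ne_zero _ hjpos.ne'
  field_simp

/-! ### Slices give product eigen -/

theorem isPiEigen_fin : ∀ {n : ℕ} {φ : (Fin n → H3) → ℂ}, Continuous φ →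
    (∀ P v, IsSphEigen fun R => φ (update P v R)) → IsPiEigen φ
  | 0, φ, _, _ => fun k _ _ P => by
    have : Measure.pi (fun _ : Fin 0 => vol) = Measure.dirac (fun i => isEmptyElim i) :=
      Measure.pi_of_empty _
    rw [piKop, this, integral_dirac]
    simp [Subsingleton.elim (fun i => isEmptyElim i) P]
  | n + 1, φ, hc, h => fun k hk hs P => by
    set e := MeasurableEquiv.piFinSuccAbove (fun _ : Fin (n + 1) => H3) 0
    have hmp : MeasurePreserving e (Measure.pi fun _ => vol)
        (vol.prod (Measure.pi fun _ => vol)) :=
      measurePreserving_piFinSuccAbove (fun _ => vol) 0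
    have he : ∀ (R : H3) (T : Fin n → H3), e.symm (R, T) = Fin.cons R T := fun R T => by
      simp [e, MeasurableEquiv.piFinSuccAbove, Fin.insertNthEquiv, Fin.insertNth_zero']
    set f : (Fin (n + 1) → H3) → ℂ := fun Q => (∏ w, k w (cdist (P w) (Q w))) • φ Q
    have hint : Integrable f (Measure.pi fun _ => vol) := integrable_prod_profile_smul hk hs P hc
    have hint' : Integrable (fun p => f (e.symm p)) (vol.prod (Measure.pi fun _ => vol)) :=
      ((hmp.symm _).integrable_comp_emb e.symm.measurableEmbedding).mpr hint
    have hslice : ∀ R : H3, ∫ T, f (e.symm (R, T)) ∂(Measure.pi fun _ => vol)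
        = k 0 (cdist (P 0) R) • ((∏ w : Fin n, sph (k w.succ)) • φ (update P 0 R)) := by
      intro R
      have ih := isPiEigen_fin (φ := fun T => φ (Fin.cons R T))
        (hc.comp (continuous_const.finCons continuous_id))
        (fun T v => by
          simp only [Fin.cons_update]
          exact h _ _)
        (fun w => k w.succ) (fun w => hk _) (fun w => hs _) (Fin.tail P)
      rw [piKop] at ih
      rw [← Fin.cons_self_tail P, Fin.update_cons_zero, Fin.cons_zero, ← ih, ← integral_smul]
      refine integral_congr_ae (Eventually.of_forall fun T => ?_)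
      simp only [f, he, Fin.prod_univ_succ, Fin.cons_zero, Fin.cons_succ, mul_smul, Fin.tail]
    rw [piKop, ← (hmp.symm _).integral_comp e.symm.measurableEmbedding f, integral_prod _ hint']
    simp only [hslice]
    have h0 := (h P 0).kop_eq (k 0) (hk 0) (hs 0) (P 0)
    simp only [kop, update_eq_self] at h0
    simp only [smul_comm (k 0 _) (∏ w : Fin n, sph (k w.succ))]
    rw [integral_smul, h0, Fin.prod_univ_succ, smul_smul, mul_comm]

/-- A continuous function with spherical slices is a product eigenfunction. -/
theorem isPiEigen_of_slice [DecidableEq ι] {φ : (ι → H3) → ℂ} (hc : Continuous φ)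
    (h : ∀ P v, IsSphEigen fun R => φ (update P v R)) : IsPiEigen φ := by
  intro k hk hs P
  set e : ι ≃ Fin (Fintype.card ι) := Fintype.equivFin ι
  set E := MeasurableEquiv.piCongrLeft (fun _ : Fin (Fintype.card ι) => H3) e
  have hmp : MeasurePreserving E (Measure.pi fun _ => vol) (Measure.pi fun _ => vol) :=
    measurePreserving_piCongrLeft (fun _ => vol) e
  have hE : ∀ (Q : ι → H3) (i : Fin (Fintype.card ι)), E Q i = Q (e.symm i) := fun Q i => by
    rw [MeasurableEquiv.coe_piCongrLeft, Equiv.piCongrLeft_apply]
    simp
  set ψ : (Fin (Fintype.card ι) → H3) → ℂ := fun T => φ fun w => T (e w)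
  have hψ : ∀ T v, IsSphEigen fun R => ψ (update T v R) := fun T v => by
    have : (fun R => ψ (update T v R))
        = fun R => φ (update (fun w => T (e w)) (e.symm v) R) := by
      funext R
      simp only [ψ]
      congr 1
      funext w
      by_cases hw : w = e.symm v
      · subst hw; simp
      · rw [update_of_ne hw, update_of_ne fun h' => hw (by rw [← h', e.symm_apply_apply])]
    rw [this]
    exact h _ _
  have hfin := isPiEigen_fin (φ := ψ)
    (hc.comp (continuous_pi fun w => continuous_apply (e w))) hψ
    (fun i => k (e.symm i)) (fun i => hk _) (fun i => hs _) (fun i => P (e.symm i))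
  rw [piKop] at hfin ⊢
  rw [← hmp.integral_comp E.measurableEmbedding] at hfin
  simp only [ψ, hE, Equiv.symm_apply_apply] at hfin
  rw [Fintype.prod_equiv e.symm _ (fun w => sph (k w)) (fun i => rfl)] at hfin
  rw [← hfin]
  refine integral_congr_ae (Eventually.of_forall fun Q => ?_)
  simp only
  rw [Fintype.prod_equiv e.symm (fun i => k (e.symm i) (cdist (P (e.symm i)) (Q (e.symm i))))
    (fun w => k w (cdist (P w) (Q w))) (fun i => rfl)]

/-- Products of Whittaker functions. -/
theorem isPiEigen_prod_whit {a : ι → ℂ} (ha : ∀ w, a w ≠ 0) :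
    IsPiEigen fun P : ι → H3 => ∏ w, whit (a w) (P w) := by
  classical
  refine isPiEigen_of_slice
    (continuous_finsetProd _ fun w _ => (continuous_whit (ha w)).comp (continuous_apply w))
    fun P v => ?_
  have : (fun R => ∏ w, whit (a w) (update P v R w))
      = fun R => (∏ w ∈ Finset.univ.erase v, whit (a w) (P w)) * whit (a v) R := by
    funext R
    rw [← Finset.mul_prod_erase _ _ (Finset.mem_univ v), update_self, mul_comm]
    congr 1
    exact Finset.prod_congr rfl fun w hw => by rw [update_of_ne (Finset.ne_of_mem_erase hw)]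
  rw [this]
  exact (isSphEigen_whit (ha v)).const_mul _

end Fermat.Agent.LT.H3
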