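import Fermat.Agent.LT.H3.AxisMeasure
import Fermat.Agent.LT.H3.Kernel
import Fermat.Agent.LT.H3.Bessel
import Mathlib.Analysis.SpecialFunctions.Arcosh
import Mathlib.MeasureTheory.Function.Jacobian
import Mathlib.MeasureTheory.Integral.IntervalIntegral.IntegrationByParts

/-!
# The spherical transform as a one-variable integral; balls

`sph k = 4π ∫_{u ≥ 1} k u · arcosh u`; the mean value relation over balls; `K0` as an integral of
`exp (-x cosh r)`.
-/

set_option autoImplicit false

noncomputable section

open MeasureTheory Real Set Filter Topology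

namespace Fermat.Agent.LT.H3

theorem integral_axis_slice {a : ℝ} (ha : 1 ≤ a) :
    ∫ b in Icc (-√(a ^ 2 - 1)) (√(a ^ 2 - 1)), (a - b)⁻¹ = 2 * arcosh a := by
  set r := √(a ^ 2 - 1)
  have hr : 0 ≤ r := Real.sqrt_nonneg _
  have hr2 : r ^ 2 = a ^ 2 - 1 := Real.sq_sqrt (by nlinarith)
  have hra : r < a := by nlinarith
  rw [integral_Icc_eq_integral_Ioc, ← intervalIntegral.integral_of_le (by linarith),
    intervalIntegral.integral_comp_sub_left (fun x => x⁻¹) a, sub_neg_eq_add,
    integral_inv_of_pos (by linarith) (by linarith),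
    show (a + r) / (a - r) = (a + r) ^ 2 by
      rw [div_eq_iff (by linarith)]
      linear_combination (a + r) * hr2,
    Real.log_pow]
  simp [arcosh, r]

/-- The spherical transform of a bounded profile vanishing beyond some radius. -/
theorem sph_eq {k : ℝ → ℝ} (hk : Measurable k) {C R : ℝ} (hC : ∀ u, ‖k u‖ ≤ C)
    (hR : ∀ u, R < u → k u = 0) :
    sph k = 4 * π * ∫ u in Ici 1, k u * arcosh u := by
  classical
  set F : ℝ × ℝ → ℝ := fun p => k p.1 * (p.1 - p.2)⁻¹
  have hF : Measurable F :=
    (hk.comp measurable_fst).mul (measurable_fst.sub measurable_snd).inv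
  have hreg : MeasurableSet axisRegion :=
    (measurableSet_le measurable_const measurable_fst).inter
      (measurableSet_le (measurable_snd.pow_const 2) ((measurable_fst.pow_const 2).sub_const 1))
  have h1 : sph k = 2 * π * ∫ p in axisRegion, F p := by
    have e : (fun Q => k (cdist origin Q) * tc Q) = fun Q => F (axisCoord Q) :=
      funext fun Q => by simp only [F]; rw [axisCoord_fst, tc_eq_axisCoord, axisCoord_fst]
    rw [sph, e, ← integral_map continuous_axisCoord.aemeasurable hF.aestronglyMeasurable,
      map_axisCoord, integral_smul_measure, ENNReal.toReal_ofReal (by positivity), smul_eq_mul]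
    rfl
  have hint : IntegrableOn F axisRegion := by
    set S : Set (ℝ × ℝ) := axisRegion ∩ Icc 1 R ×ˢ Icc (-R) R with hS
    have hclosed : IsClosed axisRegion :=
      (isClosed_le continuous_const continuous_fst).inter
        (isClosed_le (continuous_snd.pow 2) ((continuous_fst.pow 2).sub continuous_const))
    have hSc : IsCompact S := (isCompact_Icc.prod isCompact_Icc).inter_left hclosed
    have hFS : IntegrableOn (fun p : ℝ × ℝ => C * |(p.1 - p.2)⁻¹|) S := by
      refine ContinuousOn.integrableOn_compact hSc (continuousOn_const.mul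
        ((continuous_fst.sub continuous_snd).continuousOn.inv₀ fun p hp => ?_).abs)
      obtain ⟨⟨h1, h2⟩, -⟩ := hp
      intro h0
      have h3 : p.1 = p.2 := sub_eq_zero.mp h0
      rw [h3] at h2
      linarith
    have hFS' : IntegrableOn F S :=
      Integrable.mono' hFS hF.aestronglyMeasurable (Eventually.of_forall fun p => by
        simp only [F, norm_mul, Real.norm_eq_abs (p.1 - p.2)⁻¹]
        exact mul_le_mul_of_nonneg_right (hC _) (abs_nonneg _))
    refine hFS'.of_forall_sdiff_eq_zero hreg fun p hp => ?_
    obtain ⟨⟨h1, h2⟩, hp2⟩ := hp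
    have : R < p.1 := not_le.mp fun h => hp2 ⟨⟨h1, h2⟩, ⟨h1, h⟩, by nlinarith, by nlinarith⟩
    simp [F, hR _ this]
  rw [h1, ← integral_indicator hreg, Measure.volume_eq_prod,
    integral_prod _ (by rw [← Measure.volume_eq_prod]; exact hint.integrable_indicator hreg),
    ← integral_indicator (measurableSet_Ici : MeasurableSet (Ici (1 : ℝ)))]
  have e : ∀ a : ℝ, ∫ b, axisRegion.indicator F (a, b)
      = 2 * (Ici (1 : ℝ)).indicator (fun u => k u * arcosh u) a := by
    intro a
    by_cases ha : 1 ≤ a
    · have hsec : (fun b => axisRegion.indicator F (a, b))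
          = (Icc (-√(a ^ 2 - 1)) (√(a ^ 2 - 1))).indicator fun b => k a * (a - b)⁻¹ := by
        funext b
        have hiff : (a, b) ∈ axisRegion ↔ b ∈ Icc (-√(a ^ 2 - 1)) (√(a ^ 2 - 1)) := by
          have hh : (a, b) ∈ axisRegion ↔ b ^ 2 ≤ a ^ 2 - 1 := ⟨fun h => h.2, fun h => ⟨ha, h⟩⟩
          rw [hh, Real.sq_le (by nlinarith), mem_Icc]
        by_cases hb : (a, b) ∈ axisRegion
        · rw [indicator_of_mem hb, indicator_of_mem (hiff.mp hb)]
        · rw [indicator_of_notMem hb, indicator_of_notMem fun h => hb (hiff.mpr h)]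
      rw [hsec, integral_indicator measurableSet_Icc, integral_const_mul, integral_axis_slice ha,
        indicator_of_mem (show a ∈ Ici (1 : ℝ) from ha)]
      ring
    · have hsec : (fun b => axisRegion.indicator F (a, b)) = fun _ => 0 :=
        funext fun b => indicator_of_notMem (fun h => ha h.1) _
      rw [hsec, indicator_of_notMem (show a ∉ Ici (1 : ℝ) from ha)]
      simp
  simp only [e, integral_const_mul]
  ring

theorem integral_arcosh {ρ : ℝ} (hρ : 0 ≤ ρ) :
    ∫ u in Icc 1 (cosh ρ), arcosh u = ρ * cosh ρ - sinh ρ := by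
  rw [integral_Icc_eq_integral_Ioc, ← intervalIntegral.integral_of_le (one_le_cosh ρ)]
  have hcont : ContinuousOn arcosh (cosh '' uIcc 0 ρ) := by
    refine continuousOn_arcosh.mono ?_
    rintro _ ⟨x, -, rfl⟩
    exact one_le_cosh x
  have h := intervalIntegral.integral_comp_mul_deriv' (a := 0) (b := ρ) (g := arcosh)
    (fun x _ => hasDerivAt_cosh x) continuous_sinh.continuousOn hcont
  rw [cosh_zero] at h
  rw [← h, intervalIntegral.integral_eq_sub_of_hasDerivAt (f := fun x => x * cosh x - sinh x)]
  · simp
  · intro x hx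
    rw [uIcc_of_le hρ] at hx
    have hd : HasDerivAt (fun x => x * cosh x - sinh x) (x * sinh x) x := by
      have := ((hasDerivAt_id x).mul (hasDerivAt_cosh x)).sub (hasDerivAt_sinh x)
      refine this.congr_deriv ?_
      simp
    simpa [Function.comp_apply, arcosh_cosh hx.1] using hd
  · exact ((hcont.comp continuous_cosh.continuousOn fun x hx => mem_image_of_mem _ hx).mul
      continuous_sinh.continuousOn).intervalIntegrable

theorem integral_max_cosh_sub {ρ : ℝ} (hρ : 0 ≤ ρ) :
    ∫ s, max (cosh ρ - cosh s) 0 = 2 * (ρ * cosh ρ - sinh ρ) := by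
  rw [← setIntegral_eq_integral_of_forall_compl_eq_zero (s := Icc (-ρ) ρ) fun s hs => ?_]
  · rw [setIntegral_congr_fun measurableSet_Icc (g := fun s => cosh ρ - cosh s) fun s hs => ?_,
      integral_Icc_eq_integral_Ioc, ← intervalIntegral.integral_of_le (by linarith),
      intervalIntegral.integral_eq_sub_of_hasDerivAt (f := fun s => s * cosh ρ - sinh s)]
    · simp [sinh_neg]
      ring
    · intro s _
      exact (hasDerivAt_mul_const (cosh ρ)).sub (hasDerivAt_sinh s)
    · exact (continuous_const.sub continuous_cosh).intervalIntegrable _ _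
    · exact max_eq_left (sub_nonneg.mpr (cosh_le_cosh.mpr (by
        rw [abs_of_nonneg hρ]; exact abs_le.mpr hs)))
  · refine max_eq_right (sub_nonpos.mpr (cosh_le_cosh.mpr ?_))
    rw [abs_of_nonneg hρ]
    by_contra h
    exact hs (abs_le.mp (not_le.mp h).le)

/-- The mean value relation over balls. -/
theorem IsSphEigen.setIntegral_cdist_le {φ : H3 → ℂ} (hφ : IsSphEigen φ) {ρ : ℝ} (hρ : 0 ≤ ρ)
    (P : H3) :
    ∫ Q in {Q | cdist P Q ≤ cosh ρ}, φ Q ∂vol
      = (2 * π * ∫ s, max (cosh ρ - cosh s) 0) • φ P := by
  set R := cosh ρ with hR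
  set ind : ℝ → ℝ := (Icc (-1) R).indicator fun _ => 1
  set kn : ℕ → ℝ → ℝ := fun n u =>
    max 0 (min 1 (u + 2)) * max 0 (min 1 (1 - ((n : ℝ) + 1) * (u - R)))
  have hknc : ∀ n, Continuous (kn n) := fun n => by fun_prop
  have hkzero : ∀ n u, R + 1 < u → kn n u = 0 := fun n u hu => by
    refine mul_eq_zero_of_right _ (max_eq_left (min_le_of_right_le ?_))
    nlinarith [(n.cast_nonneg : (0 : ℝ) ≤ n)]
  have hkns : ∀ n, HasCompactSupport (kn n) := fun n =>
    HasCompactSupport.intro (isCompact_Icc (a := -2) (b := R + 1)) fun u hu => by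
      rcases lt_or_ge u (-2) with h | h
      · exact mul_eq_zero_of_left (max_eq_left (min_le_of_right_le (by linarith))) _
      · exact hkzero n u (not_le.mp fun h' => hu ⟨h, h'⟩)
  have hkbd : ∀ n u, ‖kn n u‖ ≤ 1 := fun n u => by
    rw [norm_of_nonneg (mul_nonneg (le_max_left _ _) (le_max_left _ _))]
    exact mul_le_one₀ (max_le zero_le_one (min_le_left _ _)) (le_max_left _ _)
      (max_le zero_le_one (min_le_left _ _))
  have hlim : ∀ u, 1 ≤ u → Tendsto (fun n => kn n u) atTop (𝓝 (ind u)) := by
    intro u hu
    have hcut : max 0 (min 1 (u + 2)) = 1 := by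
      rw [min_eq_left (by linarith), max_eq_right zero_le_one]
    rcases le_or_gt u R with h | h
    · rw [show ind u = 1 from indicator_of_mem (show u ∈ Icc (-1) R from ⟨by linarith, h⟩) _]
      refine tendsto_const_nhds.congr fun n => ?_
      simp only [kn]
      rw [hcut, min_eq_left (by nlinarith [(n.cast_nonneg : (0 : ℝ) ≤ n)]),
        max_eq_right zero_le_one, one_mul]
    · rw [show ind u = 0 from indicator_of_notMem (fun hmem => (hmem.2).not_gt h) _]
      refine tendsto_const_nhds.congr' ?_
      obtain ⟨N, hN⟩ := exists_nat_ge (1 / (u - R))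
      filter_upwards [eventually_ge_atTop N] with n hn
      simp only [kn]
      rw [hcut, one_mul, max_eq_left (min_le_of_right_le ?_)]
      have : 1 / (u - R) ≤ (n : ℝ) + 1 := hN.trans (by exact_mod_cast hn.trans (Nat.le_succ n))
      rw [div_le_iff₀ (by linarith)] at this
      linarith
  -- dominated convergence on both sides
  have hsph : Tendsto (fun n => sph (kn n)) atTop (𝓝 (sph ind)) := by
    refine tendsto_integral_of_dominated_convergence
      (fun Q => |max 0 (min 1 (R + 2 - cdist origin Q))| * tc Q)
      (fun n => ((continuous_profile (hknc n) origin).mul continuous_tc).aestronglyMeasurable)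
      ?_ (fun n => Eventually.of_forall fun Q => ?_)
      (Eventually.of_forall fun Q => (hlim _ (one_le_cdist _ _)).mul_const _)
    · exact ((continuous_profile (k := fun u => max 0 (min 1 (R + 2 - u))) (by fun_prop) origin
        ).abs.mul continuous_tc).integrable_of_hasCompactSupport
        (HasCompactSupport.intro (isCompact_cdist_le origin (R + 2)) fun Q hQ => by
          have : R + 2 < cdist origin Q := not_le.mp hQ
          show |max 0 (min 1 (R + 2 - cdist origin Q))| * tc Q = 0
          rw [max_eq_left (min_le_of_right_le (by linarith : R + 2 - cdist origin Q ≤ 0)),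
            abs_zero, zero_mul])
    · rw [norm_mul, Real.norm_of_nonneg (tc_pos Q).le]
      refine mul_le_mul_of_nonneg_right ?_ (tc_pos Q).le
      rcases le_or_gt (cdist origin Q) (R + 1) with h | h
      · rw [min_eq_left (by linarith), max_eq_right zero_le_one, abs_one]
        exact hkbd _ _
      · rw [hkzero n _ h, norm_zero]
        positivity
  have hop : Tendsto (fun n => kop (kn n) φ P) atTop (𝓝 (kop ind φ P)) := by
    refine tendsto_integral_of_dominated_convergence
      (fun Q => |max 0 (min 1 (R + 2 - cdist P Q))| * ‖φ Q‖)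
      (fun n => ((continuous_profile (hknc n) P).smul hφ.continuous).aestronglyMeasurable)
      ?_ (fun n => Eventually.of_forall fun Q => ?_)
      (Eventually.of_forall fun Q => (hlim _ (one_le_cdist _ _)).smul_const _)
    · exact ((continuous_profile (k := fun u => max 0 (min 1 (R + 2 - u))) (by fun_prop) P
        ).abs.mul hφ.continuous.norm).integrable_of_hasCompactSupport
        (HasCompactSupport.intro (isCompact_cdist_le P (R + 2)) fun Q hQ => by
          have : R + 2 < cdist P Q := not_le.mp hQ
          show |max 0 (min 1 (R + 2 - cdist P Q))| * ‖φ Q‖ = 0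
          rw [max_eq_left (min_le_of_right_le (by linarith : R + 2 - cdist P Q ≤ 0)),
            abs_zero, zero_mul])
    · rw [norm_smul]
      refine mul_le_mul_of_nonneg_right ?_ (norm_nonneg _)
      rcases le_or_gt (cdist P Q) (R + 1) with h | h
      · rw [min_eq_left (by linarith), max_eq_right zero_le_one, abs_one]
        exact hkbd _ _
      · rw [hkzero n _ h, norm_zero]
        positivity
  have heq : kop ind φ P = sph ind • φ P := by
    refine tendsto_nhds_unique hop ?_
    refine (hsph.smul_const (φ P)).congr fun n => ?_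
    exact (hφ.kop_eq _ (hknc n) (hkns n) P).symm
  have hval : sph ind = 2 * π * ∫ s, max (cosh ρ - cosh s) 0 := by
    rw [sph_eq (measurable_const.indicator measurableSet_Icc) (C := 1) (R := R)
      (fun u => by by_cases h : u ∈ Icc (-1) R <;> simp [h])
      (fun u hu => indicator_of_notMem (fun hmem => hmem.2.not_gt hu) _),
      integral_max_cosh_sub hρ]
    have e : (fun u => ind u * arcosh u) = (Icc (-1) R).indicator arcosh := by
      funext u
      by_cases h : u ∈ Icc (-1) R <;> simp [ind, h]
    rw [e, setIntegral_indicator measurableSet_Icc,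
      show Ici (1 : ℝ) ∩ Icc (-1) R = Icc 1 R by ext u; simp; intros; linarith,
      hR, integral_arcosh hρ]
    ring
  rw [← hR] at hval
  rw [← hval, ← heq, kop, ← integral_indicator ((isClosed_le_cdist P R).measurableSet)]
  refine integral_congr_ae (Eventually.of_forall fun Q => ?_)
  simp only
  by_cases h : cdist P Q ≤ R
  · rw [indicator_of_mem (show Q ∈ {Q | cdist P Q ≤ R} from h),
      show ind (cdist P Q) = 1 from indicator_of_mem
        (show cdist P Q ∈ Icc (-1) R from ⟨by linarith [one_le_cdist P Q], h⟩) _,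
      one_smul]
  · rw [indicator_of_notMem (show Q ∉ {Q | cdist P Q ≤ R} from h),
      show ind (cdist P Q) = 0 from indicator_of_notMem (fun hmem => h hmem.2) _, zero_smul]

/-- `K₀ x = ∫₀^∞ exp (-x cosh r)`. -/
theorem K0_eq_integral_cosh {x : ℝ} (hx : 0 < x) :
    K0 x = ∫ r in Ioi (0 : ℝ), exp (-(x * cosh r)) := by
  have hx2 : 0 < x / 2 := by positivity
  set g : ℝ → ℝ := fun τ => exp (-(x ^ 2 / (4 * τ)) - τ) / τ
  have h1 : ∫ τ in Ioi (0 : ℝ), g τ = ∫ σ in Ioi (0 : ℝ), (x / 2) * g (x / 2 * σ) := by
    rw [integral_const_mul, integral_comp_mul_left_Ioi g 0 hx2, mul_zero, smul_eq_mul, ← mul_assoc,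
      mul_inv_cancel₀ hx2.ne', one_mul]
  have h2 : ∫ σ in exp '' (univ : Set ℝ), (x / 2) * g (x / 2 * σ)
      = ∫ s : ℝ, exp (-(x * cosh s)) := by
    rw [integral_image_eq_integral_abs_deriv_smul MeasurableSet.univ
      (fun s _ => (hasDerivAt_exp s).hasDerivWithinAt) exp_injective.injOn, setIntegral_univ]
    refine integral_congr_ae (Eventually.of_forall fun s => ?_)
    simp only [g, abs_of_pos (exp_pos s), smul_eq_mul]
    rw [show -(x ^ 2 / (4 * (x / 2 * exp s))) - x / 2 * exp s = -(x * cosh s) by
      rw [cosh_eq, exp_neg]; field_simp; ring]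
    field_simp
  rw [image_univ, range_exp] at h2
  have h3 : ∫ s : ℝ, exp (-(x * cosh s)) = 2 * ∫ r in Ioi (0 : ℝ), exp (-(x * cosh r)) := by
    rw [← integral_comp_abs (f := fun r => exp (-(x * cosh r)))]
    simp [cosh_abs]
  show 1 / 2 * ∫ τ in Ioi (0 : ℝ), g τ = _
  rw [h1, h2, h3]
  ring

end Fermat.Agent.LT.H3
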