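import Fermat.Agent.LT.H3.Kernel
import Fermat.Agent.LT.H3.Bessel
import Mathlib.Analysis.SpecialFunctions.Gaussian.FourierTransform
import Mathlib.MeasureTheory.Integral.IntegralEqImproper

/-!
# The spherical Whittaker function at the parameter zero

`whit a P = t K₀ (2π ‖a‖ t) · exp (2πi Re (a z))` is an eigenfunction of all radial operators with
the eigencharacter of `tc`: it is the limit of superpositions of the translates of `tc ∘ wInv`.
-/

set_option autoImplicit false

noncomputable section

open MeasureTheory Real Set Filter Topology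
open scoped ComplexConjugate RealInnerProductSpace

namespace Fermat.Agent.LT.H3

/-- The additive character `z ↦ exp (2πi Re (a z))` of `ℂ`. -/
def echar (a z : ℂ) : ℂ := Complex.exp (((2 * π * (a * z).re : ℝ) : ℂ) * Complex.I)

theorem norm_echar (a z : ℂ) : ‖echar a z‖ = 1 := Complex.norm_exp_ofReal_mul_I _

theorem echar_add (a z w : ℂ) : echar a (z + w) = echar a z * echar a w := by
  rw [echar, echar, echar, ← Complex.exp_add, mul_add, Complex.add_re]
  push_cast
  ring_nf

@[simp] theorem echar_zero_right (a : ℂ) : echar a 0 = 1 := by simp [echar]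

@[simp] theorem echar_zero_left (z : ℂ) : echar 0 z = 1 := by simp [echar]

theorem continuous_echar (a : ℂ) : Continuous (echar a) := by unfold echar; fun_prop

/-- The Whittaker function. -/
def whit (a : ℂ) (P : H3) : ℂ := ((tc P * K0 (2 * π * ‖a‖ * tc P) : ℝ) : ℂ) * echar a (zc P)

/-- The Whittaker function is continuous. -/
theorem continuous_whit {a : ℂ} (ha : a ≠ 0) : Continuous (whit a) := by
  have hna : 0 < ‖a‖ := norm_pos_iff.mpr ha
  have h : Continuous fun P : H3 => K0 (2 * π * ‖a‖ * tc P) :=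
    continuousOn_K0.comp_continuous (continuous_tc.const_mul _) fun P => by
      have := tc_pos P; exact mem_Ioi.mpr (by positivity)
  exact (Complex.continuous_ofReal.comp (continuous_tc.mul h)).mul
    ((continuous_echar a).comp continuous_zc)

/-! ### Translates of `tc ∘ wInv` -/

/-- The height after translating `w` to `0` and inverting. -/
def poisson (w : ℂ) (P : H3) : ℝ := tc P / (Complex.normSq (zc P - w) + tc P ^ 2)

theorem poisson_eq (w : ℂ) (P : H3) :
    poisson w P = tc ((wInv * affine 1 (-w) one_ne_zero) • P) := by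
  conv_rhs => rw [← pt_coord P]
  have ht := tc_pos P
  rw [mul_smul, affine_smul 1 (-w) _ one_ne_zero ht, norm_one, one_mul, one_mul,
    wInv_smul _ ht, tc_pt _ (div_pos ht (add_pos_of_nonneg_of_pos (Complex.normSq_nonneg _)
      (pow_pos ht 2))), ← sub_eq_add_neg]
  rfl

theorem isSphEigen_poisson (w : ℂ) : IsSphEigen fun P => (poisson w P : ℂ) := by
  simp only [poisson_eq]
  exact isSphEigen_tc.comp_smul (wInv * affine 1 (-w) one_ne_zero)

theorem poisson_pos (w : ℂ) (P : H3) : 0 < poisson w P :=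
  div_pos (tc_pos P) (add_pos_of_nonneg_of_pos (Complex.normSq_nonneg _) (pow_pos (tc_pos P) 2))

theorem poisson_le (w : ℂ) (P : H3) : poisson w P ≤ (tc P)⁻¹ := by
  have ht := tc_pos P
  rw [poisson, inv_eq_one_div, div_le_div_iff₀ (by positivity [Complex.normSq_nonneg (zc P - w)])
    ht]
  nlinarith [Complex.normSq_nonneg (zc P - w)]

theorem continuous_poisson : Continuous fun p : H3 × ℂ => poisson p.2 p.1 := by
  have h1 := continuous_tc.comp (continuous_fst (X := H3) (Y := ℂ))
  have h2 := continuous_zc.comp (continuous_fst (X := H3) (Y := ℂ))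
  refine Continuous.div h1 ((Complex.continuous_normSq.comp (h2.sub continuous_snd)).add
    (h1.pow 2)) fun p => (add_pos_of_nonneg_of_pos (Complex.normSq_nonneg _) ?_).ne'
  exact pow_pos (tc_pos p.1) 2

theorem integrable_exp_neg_normSq {σ : ℝ} (hσ : 0 < σ) :
    Integrable fun w : ℂ => Real.exp (-(σ * Complex.normSq w)) := by
  have h := (GaussianFourier.integrable_cexp_neg_mul_sq_norm_add (V := ℂ) (b := (σ : ℂ))
    (by simpa using hσ) 0 0).norm
  refine h.congr (Eventually.of_forall fun w => ?_)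
  simp [Complex.norm_exp, Complex.normSq_eq_norm_sq, ← Complex.ofReal_pow]

/-- The regularised superposition. -/
def whitReg (a : ℂ) (σ : ℝ) (P : H3) : ℂ :=
  ∫ w : ℂ, echar a w * ((Real.exp (-(σ * Complex.normSq w)) * poisson w P : ℝ) : ℂ)

theorem continuous_whitReg_integrand (a : ℂ) (σ : ℝ) :
    Continuous fun p : H3 × ℂ =>
      echar a p.2 * ((Real.exp (-(σ * Complex.normSq p.2)) * poisson p.2 p.1 : ℝ) : ℂ) :=
  ((continuous_echar a).comp continuous_snd).mul (Complex.continuous_ofReal.comp
    ((Real.continuous_exp.comp ((Complex.continuous_normSq.comp continuous_snd).const_mul σ).neg).mul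
      continuous_poisson))

theorem norm_whitReg_integrand_le (a : ℂ) (σ : ℝ) (P : H3) (w : ℂ) :
    ‖echar a w * ((Real.exp (-(σ * Complex.normSq w)) * poisson w P : ℝ) : ℂ)‖
      ≤ (tc P)⁻¹ * Real.exp (-(σ * Complex.normSq w)) := by
  rw [norm_mul, norm_echar, one_mul, Complex.norm_real,
    norm_of_nonneg (mul_nonneg (Real.exp_pos _).le (poisson_pos w P).le), mul_comm]
  exact mul_le_mul_of_nonneg_right (poisson_le w P) (Real.exp_pos _).le

theorem continuous_whitReg (a : ℂ) {σ : ℝ} (hσ : 0 < σ) : Continuous (whitReg a σ) := by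
  refine continuous_iff_continuousAt.mpr fun P => ?_
  have hc := continuous_whitReg_integrand a σ
  refine continuousAt_of_dominated
    (bound := fun w => (tc P / 2)⁻¹ * Real.exp (-(σ * Complex.normSq w)))
    (Eventually.of_forall fun Q => ?_) ?_
    ((integrable_exp_neg_normSq hσ).const_mul _) (Eventually.of_forall fun w => ?_)
  · exact (Continuous.comp' hc (Continuous.prodMk continuous_const continuous_id)
      ).aestronglyMeasurable
  · have : ∀ᶠ Q in 𝓝 P, tc P / 2 < tc Q :=
      continuous_tc.continuousAt.eventually_const_lt (by linarith [tc_pos P])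
    filter_upwards [this] with Q hQ
    refine Eventually.of_forall fun w => (norm_whitReg_integrand_le a σ Q w).trans ?_
    exact mul_le_mul_of_nonneg_right (inv_anti₀ (by linarith [tc_pos P]) hQ.le) (Real.exp_pos _).le
  · exact (Continuous.comp' hc (Continuous.prodMk continuous_id continuous_const)).continuousAt

theorem isSphEigen_whitReg (a : ℂ) {σ : ℝ} (hσ : 0 < σ) : IsSphEigen (whitReg a σ) := by
  refine ⟨continuous_whitReg a hσ, fun k hk hs P => ?_⟩
  set F : H3 → ℂ → ℂ := fun Q w =>
    k (cdist P Q) • (echar a w * ((Real.exp (-(σ * Complex.normSq w)) * poisson w Q : ℝ) : ℂ))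
  have hFc : Continuous (Function.uncurry F) :=
    ((continuous_profile hk P).comp continuous_fst).smul (continuous_whitReg_integrand a σ)
  have hint : Integrable (Function.uncurry F) (vol.prod volume) := by
    have h1 : Integrable (fun Q => |k (cdist P Q)| * (tc Q)⁻¹) vol :=
      ((continuous_profile hk P).abs.mul
        (continuous_tc.inv₀ fun Q => (tc_pos Q).ne')).integrable_of_hasCompactSupport
        (((hasCompactSupport_profile hs P).comp_left abs_zero).mul_right)
    refine Integrable.mono' (h1.mul_prod (integrable_exp_neg_normSq hσ))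
      hFc.aestronglyMeasurable (Eventually.of_forall fun p => ?_)
    simp only [Function.uncurry, F, norm_smul, Real.norm_eq_abs, mul_assoc]
    exact mul_le_mul_of_nonneg_left (norm_whitReg_integrand_le a σ p.1 p.2) (abs_nonneg _)
  calc kop k (whitReg a σ) P = ∫ Q, ∫ w, F Q w ∂volume ∂vol := by
        simp only [kop, whitReg, F, integral_smul]
    _ = ∫ w, ∫ Q, F Q w ∂vol ∂volume := integral_integral_swap hint
    _ = sph k • whitReg a σ P := by
        rw [whitReg, ← integral_smul]
        refine integral_congr_ae (Eventually.of_forall fun w => ?_)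
        have h := ((isSphEigen_poisson w).const_mul
          (echar a w * (Real.exp (-(σ * Complex.normSq w)) : ℂ))).kop_eq k hk hs P
        simp only [kop] at h
        simp only [F, Complex.ofReal_mul, ← mul_assoc]
        exact h

/-! ### The Gaussian integral -/

theorem integral_echar_gauss (a : ℂ) {b : ℝ} (hb : 0 < b) :
    ∫ v : ℂ, echar a v * (Real.exp (-(b * Complex.normSq v)) : ℂ)
      = ((π / b * Real.exp (-(π ^ 2 * ‖a‖ ^ 2 / b)) : ℝ) : ℂ) := by
  have h := GaussianFourier.integral_cexp_neg_mul_sq_norm_add (V := ℂ) (b := (b : ℂ))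
    (by simpa using hb) Complex.I ((2 * π : ℝ) • conj a)
  have e : ∀ v : ℂ, echar a v * (Real.exp (-(b * Complex.normSq v)) : ℂ)
      = Complex.exp (-(b : ℂ) * ‖v‖ ^ 2 + Complex.I * (⟪(2 * π : ℝ) • conj a, v⟫ : ℝ)) := by
    intro v
    rw [echar, Complex.ofReal_exp, ← Complex.exp_add, add_comm, Complex.normSq_eq_norm_sq]
    congr 1
    rw [real_inner_smul_left, Complex.inner, Complex.conj_conj, mul_comm v a]
    push_cast
    ring
  simp only [e]
  rw [h, Complex.finrank_real_complex]
  push_cast
  rw [div_self (two_ne_zero), Complex.cpow_one, Complex.I_sq, norm_smul, RCLike.norm_conj,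
    Real.norm_of_nonneg (by positivity)]
  push_cast
  congr 2
  field_simp
  ring

theorem integral_echar_gauss_two (a z : ℂ) {σ τ : ℝ} (hσ : 0 ≤ σ) (hτ : 0 < τ) :
    ∫ w : ℂ, echar a w *
        (Real.exp (-(σ * Complex.normSq w) - τ * Complex.normSq (z - w)) : ℂ)
      = ((π / (σ + τ) * Real.exp (-(π ^ 2 * ‖a‖ ^ 2 / (σ + τ))) *
          Real.exp (-(σ * τ / (σ + τ) * Complex.normSq z)) : ℝ) : ℂ) *
        echar a (((τ / (σ + τ) : ℝ) : ℂ) * z) := by
  have hb : 0 < σ + τ := by linarith
  set c : ℂ := ((τ / (σ + τ) : ℝ) : ℂ) * z with hc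
  rw [← integral_add_right_eq_self _ c]
  have e : ∀ v : ℂ, echar a (v + c) *
        (Real.exp (-(σ * Complex.normSq (v + c)) - τ * Complex.normSq (z - (v + c))) : ℂ)
      = (echar a v * (Real.exp (-((σ + τ) * Complex.normSq v)) : ℂ)) *
        ((Real.exp (-(σ * τ / (σ + τ) * Complex.normSq z)) : ℂ) * echar a c) := by
    intro v
    have : Real.exp (-(σ * Complex.normSq (v + c)) - τ * Complex.normSq (z - (v + c)))
        = Real.exp (-((σ + τ) * Complex.normSq v)) *
          Real.exp (-(σ * τ / (σ + τ) * Complex.normSq z)) := by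
      rw [← Real.exp_add]
      congr 1
      simp only [hc, Complex.normSq_apply, Complex.add_re, Complex.add_im, Complex.sub_re,
        Complex.sub_im, Complex.re_ofReal_mul, Complex.im_ofReal_mul]
      field_simp
      ring
    rw [this, echar_add]
    push_cast
    ring
  simp only [e]
  rw [integral_mul_const, integral_echar_gauss a hb]
  push_cast
  ring

theorem norm_gauss_value_le {a z : ℂ} (ha : a ≠ 0) {σ τ : ℝ} (hσ : 0 ≤ σ) (hτ : 0 < τ) :
    ‖((π / (σ + τ) * Real.exp (-(π ^ 2 * ‖a‖ ^ 2 / (σ + τ))) *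
          Real.exp (-(σ * τ / (σ + τ) * Complex.normSq z)) : ℝ) : ℂ) *
        echar a (((τ / (σ + τ) : ℝ) : ℂ) * z)‖ ≤ 1 / (π * ‖a‖ ^ 2) := by
  have hb : 0 < σ + τ := by linarith
  have hna : 0 < ‖a‖ := norm_pos_iff.mpr ha
  rw [norm_mul, norm_echar, mul_one, Complex.norm_real, norm_of_nonneg (by positivity)]
  have h1 : Real.exp (-(σ * τ / (σ + τ) * Complex.normSq z)) ≤ 1 :=
    Real.exp_le_one_iff.mpr (neg_nonpos.mpr (mul_nonneg (by positivity) (Complex.normSq_nonneg _)))
  have h2 := exp_neg_div_div_le (c := π ^ 2 * ‖a‖ ^ 2) (by positivity) hb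
  calc π / (σ + τ) * Real.exp (-(π ^ 2 * ‖a‖ ^ 2 / (σ + τ))) *
          Real.exp (-(σ * τ / (σ + τ) * Complex.normSq z))
      ≤ π / (σ + τ) * Real.exp (-(π ^ 2 * ‖a‖ ^ 2 / (σ + τ))) * 1 := by gcongr
    _ = π * (Real.exp (-(π ^ 2 * ‖a‖ ^ 2 / (σ + τ))) / (σ + τ)) := by ring
    _ ≤ π * (1 / (π ^ 2 * ‖a‖ ^ 2)) := by gcongr
    _ = 1 / (π * ‖a‖ ^ 2) := by field_simp

/-- The integrand of `whitReg` after the Gaussian integral. -/
def whitRegDensity (a : ℂ) (σ : ℝ) (P : H3) (τ : ℝ) : ℂ :=
  (Real.exp (-(τ * tc P ^ 2)) : ℂ) *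
    (((π / (σ + τ) * Real.exp (-(π ^ 2 * ‖a‖ ^ 2 / (σ + τ))) *
        Real.exp (-(σ * τ / (σ + τ) * Complex.normSq (zc P))) : ℝ) : ℂ) *
      echar a (((τ / (σ + τ) : ℝ) : ℂ) * zc P))

theorem measurable_whitRegDensity (a : ℂ) (σ : ℝ) (P : H3) :
    Measurable (whitRegDensity a σ P) := by
  have he : Measurable (echar a) := (continuous_echar a).measurable
  unfold whitRegDensity
  fun_prop

theorem integrableOn_exp_neg_mul_sq {t : ℝ} (ht : 0 < t) :
    IntegrableOn (fun τ => Real.exp (-(τ * t ^ 2))) (Ioi (0 : ℝ)) := by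
  have h := exp_neg_integrableOn_Ioi 0 (pow_pos ht 2)
  refine h.congr_fun (fun τ _ => ?_) measurableSet_Ioi
  show Real.exp (-t ^ 2 * τ) = Real.exp (-(τ * t ^ 2))
  congr 1
  ring

theorem norm_whitRegDensity_le {a : ℂ} (ha : a ≠ 0) {σ : ℝ} (hσ : 0 ≤ σ) (P : H3) {τ : ℝ}
    (hτ : 0 < τ) :
    ‖whitRegDensity a σ P τ‖ ≤ 1 / (π * ‖a‖ ^ 2) * Real.exp (-(τ * tc P ^ 2)) := by
  rw [whitRegDensity, norm_mul, Complex.norm_real, norm_of_nonneg (Real.exp_pos _).le, mul_comm]
  exact mul_le_mul_of_nonneg_right (norm_gauss_value_le ha hσ hτ) (Real.exp_pos _).le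

theorem whitReg_eq (a : ℂ) {σ : ℝ} (hσ : 0 < σ) (P : H3) :
    whitReg a σ P = (tc P : ℂ) * ∫ τ in Ioi (0 : ℝ), whitRegDensity a σ P τ := by
  set t := tc P
  set z := zc P
  have ht : 0 < t := tc_pos P
  set F : ℂ → ℝ → ℂ := fun w τ => (Real.exp (-(τ * t ^ 2)) : ℂ) *
    (echar a w * (Real.exp (-(σ * Complex.normSq w) - τ * Complex.normSq (z - w)) : ℂ))
  have hFc : Continuous (Function.uncurry F) :=
    (by fun_prop : Continuous fun p : ℂ × ℝ => (Real.exp (-(p.2 * t ^ 2)) : ℂ)).mul
      (((continuous_echar a).comp continuous_fst).mul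
        (Complex.continuous_ofReal.comp (Real.continuous_exp.comp
          (((Complex.continuous_normSq.comp continuous_fst).const_mul σ).neg.sub
            (continuous_snd.mul (Complex.continuous_normSq.comp
              (continuous_const.sub continuous_fst)))))))
  have hint : Integrable (Function.uncurry F)
      ((volume : Measure ℂ).prod ((volume : Measure ℝ).restrict (Ioi 0))) := by
    refine Integrable.mono' ((integrable_exp_neg_normSq hσ).mul_prod
      (integrableOn_exp_neg_mul_sq ht)) hFc.aestronglyMeasurable ?_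
    have : ∀ᵐ p : ℂ × ℝ ∂(volume : Measure ℂ).prod ((volume : Measure ℝ).restrict (Ioi 0)),
        0 < p.2 := Measure.quasiMeasurePreserving_snd.ae (ae_restrict_mem measurableSet_Ioi)
    refine this.mono fun p hp => ?_
    simp only [Function.uncurry, F, norm_mul, Complex.norm_real, norm_echar, one_mul,
      Real.norm_of_nonneg (Real.exp_pos _).le]
    rw [mul_comm]
    refine mul_le_mul_of_nonneg_right (Real.exp_le_exp.mpr ?_) (Real.exp_pos _).le
    nlinarith [mul_nonneg hp.le (Complex.normSq_nonneg (z - p.1))]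
  calc whitReg a σ P = (t : ℂ) * ∫ w, ∫ τ in Ioi (0 : ℝ), F w τ := by
        rw [whitReg, ← integral_const_mul]
        refine integral_congr_ae (Eventually.of_forall fun w => ?_)
        have hX : 0 < Complex.normSq (z - w) + t ^ 2 :=
          add_pos_of_nonneg_of_pos (Complex.normSq_nonneg _) (pow_pos ht 2)
        have e : ∀ τ : ℝ, F w τ = (echar a w * (Real.exp (-(σ * Complex.normSq w)) : ℂ)) *
            (Real.exp (-(Complex.normSq (z - w) + t ^ 2) * τ) : ℂ) := fun τ => by
          simp only [F]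
          rw [show -(σ * Complex.normSq w) - τ * Complex.normSq (z - w)
              = -(σ * Complex.normSq w) + -(τ * Complex.normSq (z - w)) by ring,
            show -(Complex.normSq (z - w) + t ^ 2) * τ
              = -(τ * Complex.normSq (z - w)) + -(τ * t ^ 2) by ring, Real.exp_add, Real.exp_add]
          push_cast
          ring
        simp only [e]
        rw [integral_const_mul, integral_complex_ofReal,
          integral_exp_mul_Ioi (by linarith : -(Complex.normSq (z - w) + t ^ 2) < 0)]
        simp only [poisson, mul_zero, Real.exp_zero]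
        push_cast
        field_simp
        rfl
    _ = (t : ℂ) * ∫ τ in Ioi (0 : ℝ), ∫ w, F w τ := by rw [integral_integral_swap hint]
    _ = (t : ℂ) * ∫ τ in Ioi (0 : ℝ), whitRegDensity a σ P τ := by
        congr 1
        refine setIntegral_congr_fun measurableSet_Ioi fun τ (hτ : 0 < τ) => ?_
        simp only [F, whitRegDensity]
        rw [integral_const_mul, integral_echar_gauss_two a z hσ.le hτ]

theorem norm_whitReg_le {a : ℂ} (ha : a ≠ 0) {σ : ℝ} (hσ : 0 < σ) (P : H3) :
    ‖whitReg a σ P‖ ≤ 1 / (π * ‖a‖ ^ 2) * (tc P)⁻¹ := by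
  have ht := tc_pos P
  rw [whitReg_eq a hσ, norm_mul, Complex.norm_real, norm_of_nonneg ht.le]
  have h : ‖∫ τ in Ioi (0 : ℝ), whitRegDensity a σ P τ‖
      ≤ ∫ τ in Ioi (0 : ℝ), 1 / (π * ‖a‖ ^ 2) * Real.exp (-(τ * tc P ^ 2)) :=
    norm_integral_le_of_norm_le ((integrableOn_exp_neg_mul_sq ht).const_mul _)
      ((ae_restrict_mem measurableSet_Ioi).mono fun τ hτ => norm_whitRegDensity_le ha hσ.le P hτ)
  refine (mul_le_mul_of_nonneg_left h ht.le).trans (le_of_eq ?_)
  rw [integral_const_mul]
  have e : ∫ τ in Ioi (0 : ℝ), Real.exp (-(τ * tc P ^ 2)) = 1 / tc P ^ 2 := by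
    rw [show (fun τ : ℝ => Real.exp (-(τ * tc P ^ 2))) = fun τ => Real.exp (-(tc P ^ 2) * τ) by
      funext τ; congr 1; ring,
      integral_exp_mul_Ioi (neg_lt_zero.mpr (pow_pos ht 2))]
    simp
  rw [e]
  field_simp

theorem tendsto_whitReg {a : ℂ} (ha : a ≠ 0) (P : H3) :
    Tendsto (fun σ => whitReg a σ P) (𝓝[>] 0) (𝓝 ((2 * π : ℂ) * whit a P)) := by
  set t := tc P
  have ht : 0 < t := tc_pos P
  have hna : 0 < ‖a‖ := norm_pos_iff.mpr ha
  have hlim : Tendsto (fun σ => (t : ℂ) * ∫ τ in Ioi (0 : ℝ), whitRegDensity a σ P τ) (𝓝[>] 0)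
      (𝓝 ((t : ℂ) * ∫ τ in Ioi (0 : ℝ), whitRegDensity a 0 P τ)) := by
    refine (tendsto_integral_filter_of_dominated_convergence
      (fun τ => 1 / (π * ‖a‖ ^ 2) * Real.exp (-(τ * t ^ 2)))
      (Eventually.of_forall fun σ => (measurable_whitRegDensity a σ P).aestronglyMeasurable)
      ?_ ((integrableOn_exp_neg_mul_sq ht).const_mul _) ?_).const_mul _
    · filter_upwards [self_mem_nhdsWithin] with σ (hσ : 0 < σ)
      exact (ae_restrict_mem measurableSet_Ioi).mono fun τ hτ =>
        norm_whitRegDensity_le ha hσ.le P hτ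
    · refine (ae_restrict_mem measurableSet_Ioi).mono fun τ (hτ : 0 < τ) => ?_
      refine tendsto_nhdsWithin_of_tendsto_nhds (ContinuousAt.tendsto ?_)
      have hne : (0 : ℝ) + τ ≠ 0 := by simpa using hτ.ne'
      have hd : ContinuousAt (fun σ : ℝ => σ + τ) 0 := by fun_prop
      have h1 : ContinuousAt (fun σ : ℝ => π / (σ + τ) *
          Real.exp (-(π ^ 2 * ‖a‖ ^ 2 / (σ + τ))) *
          Real.exp (-(σ * τ / (σ + τ) * Complex.normSq (zc P)))) 0 :=
        ((continuousAt_const.div hd hne).mul (continuousAt_const.div hd hne).neg.rexp).mul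
          (((continuousAt_id.mul continuousAt_const).div hd hne).mul continuousAt_const).neg.rexp
      have h2 : ContinuousAt (fun σ : ℝ => echar a (((τ / (σ + τ) : ℝ) : ℂ) * zc P)) 0 :=
        (continuous_echar a).continuousAt.comp
          ((Complex.continuous_ofReal.continuousAt.comp
            (continuousAt_const.div hd hne)).mul continuousAt_const)
      exact continuousAt_const.mul ((Complex.continuous_ofReal.continuousAt.comp h1).mul h2)
  have hval : (t : ℂ) * ∫ τ in Ioi (0 : ℝ), whitRegDensity a 0 P τ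
      = (2 * π : ℂ) * whit a P := by
    set x := 2 * π * ‖a‖ * t with hx
    set g : ℝ → ℝ := fun τ => Real.exp (-(x ^ 2 / (4 * τ)) - τ) / τ with hg
    have e : ∀ τ ∈ Ioi (0 : ℝ), whitRegDensity a 0 P τ
        = ((π * t ^ 2 * g (t ^ 2 * τ) : ℝ) : ℂ) * echar a (zc P) := by
      intro τ (hτ : 0 < τ)
      simp only [whitRegDensity, zero_add, zero_mul, zero_div, neg_zero, Real.exp_zero, mul_one,
        div_self hτ.ne', Complex.ofReal_one, one_mul]
      rw [← mul_assoc, ← Complex.ofReal_mul]
      congr 2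
      simp only [hg, hx]
      rw [← mul_assoc, mul_comm (Real.exp (-(τ * t ^ 2))), mul_assoc, ← Real.exp_add,
        show -((2 * π * ‖a‖ * t) ^ 2 / (4 * (t ^ 2 * τ))) - t ^ 2 * τ
          = -(τ * t ^ 2) + -(π ^ 2 * ‖a‖ ^ 2 / τ) by field_simp; ring]
      field_simp
    rw [setIntegral_congr_fun measurableSet_Ioi e, integral_mul_const, integral_complex_ofReal,
      integral_const_mul, integral_comp_mul_left_Ioi g 0 (pow_pos ht 2), mul_zero, whit]
    have hK : K0 x = 1 / 2 * ∫ τ in Ioi (0 : ℝ), g τ := rfl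
    rw [show tc P = t from rfl, ← hx, hK, smul_eq_mul]
    have htc : (t : ℂ) ≠ 0 := Complex.ofReal_ne_zero.mpr ht.ne'
    push_cast
    field_simp
  rw [← hval]
  refine hlim.congr' ?_
  filter_upwards [self_mem_nhdsWithin] with σ (hσ : 0 < σ)
  exact (whitReg_eq a hσ P).symm

/-- **The Whittaker function is a spherical eigenfunction.** -/
theorem isSphEigen_whit {a : ℂ} (ha : a ≠ 0) : IsSphEigen (whit a) := by
  have key : IsSphEigen fun P => (2 * π : ℂ) * whit a P := by
    refine ⟨(continuous_whit ha).const_smul (2 * π : ℂ), fun k hk hs P => ?_⟩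
    have h1 : Tendsto (fun σ => kop k (whitReg a σ) P) (𝓝[>] 0)
        (𝓝 (kop k (fun Q => (2 * π : ℂ) * whit a Q) P)) := by
      refine tendsto_integral_filter_of_dominated_convergence
        (fun Q => |k (cdist P Q)| * (1 / (π * ‖a‖ ^ 2) * (tc Q)⁻¹)) ?_ ?_ ?_ ?_
      · filter_upwards [self_mem_nhdsWithin] with σ (hσ : 0 < σ)
        exact ((continuous_profile hk P).smul (continuous_whitReg a hσ)).aestronglyMeasurable
      · filter_upwards [self_mem_nhdsWithin] with σ (hσ : 0 < σ)
        refine Eventually.of_forall fun Q => ?_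
        rw [norm_smul, Real.norm_eq_abs]
        exact mul_le_mul_of_nonneg_left (norm_whitReg_le ha hσ Q) (abs_nonneg _)
      · exact ((continuous_profile hk P).abs.mul
          (continuous_const.mul (continuous_tc.inv₀ fun Q => (tc_pos Q).ne')
            )).integrable_of_hasCompactSupport
          ((hasCompactSupport_profile hs P).comp_left abs_zero).mul_right
      · exact Eventually.of_forall fun Q => (tendsto_whitReg ha Q).const_smul _
    refine tendsto_nhds_unique h1 (((tendsto_whitReg ha P).const_smul (sph k)).congr' ?_)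
    filter_upwards [self_mem_nhdsWithin] with σ (hσ : 0 < σ)
    exact ((isSphEigen_whitReg a hσ).kop_eq k hk hs P).symm
  have h := key.const_mul (2 * π : ℂ)⁻¹
  have hne : (2 * π : ℂ) ≠ 0 := by simp [Real.pi_ne_zero]
  simpa only [← mul_assoc, inv_mul_cancel₀ hne, one_mul] using h

end Fermat.Agent.LT.H3
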